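/-
Coordinates of points on Weierstrass curves and the addition-and-subtraction formulae.
-/
import Mathlib.AlgebraicGeometry.EllipticCurve.Affine.AddSubMap
import Mathlib.AlgebraicGeometry.EllipticCurve.DivisionPolynomial.Basic
import Mathlib.Tactic.FieldSimp
import Mathlib.Tactic.LinearCombination

set_option autoImplicit false
set_option linter.unusedSectionVars false

open WeierstrassCurve Polynomial

namespace FA.EC

universe u

variable {F : Type u} [Field F] [DecidableEq F] {W : WeierstrassCurve F}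

/-- The `x`-coordinate of a point, with junk value `0` at the point at infinity. -/
def xc : W.toAffine.Point → F
  | .zero => 0
  | .some x _ _ => x

/-- The value of `2y + a₁x + a₃` at a point, with junk value `0` at the point at infinity. -/
def pc : W.toAffine.Point → F
  | .zero => 0
  | .some x y _ => y - W.toAffine.negY x y

lemma xc_some {x y : F} (h : W.toAffine.Nonsingular x y) : xc (.some x y h) = x := rfl

lemma pc_some {x y : F} (h : W.toAffine.Nonsingular x y) :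
    pc (.some x y h) = y - W.toAffine.negY x y := rfl

lemma exists_some_of_ne_zero {P : W.toAffine.Point} (hP : P ≠ 0) :
    ∃ (x y : F) (h : W.toAffine.Nonsingular x y), P = .some x y h := by
  rcases P with _ | ⟨x, y, h⟩
  · exact absurd rfl hP
  · exact ⟨x, y, h, rfl⟩

lemma xRep_of_ne_zero {P : W.toAffine.Point} (hP : P ≠ 0) : P.xRep = ![xc P, 1] := by
  obtain ⟨x, y, h, rfl⟩ := exists_some_of_ne_zero hP
  rfl

@[simp] lemma xc_neg (P : W.toAffine.Point) : xc (-P) = xc P := by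
  rcases P with _ | ⟨x, y, h⟩
  · rfl
  · rfl

lemma pc_neg (P : W.toAffine.Point) : pc (-P) = -pc P := by
  rcases P with _ | ⟨x, y, h⟩
  · exact neg_zero.symm
  · simp only [Affine.Point.neg_some, pc_some, Affine.negY_negY]
    ring

lemma eq_or_eq_neg_of_xc_eq {P Q : W.toAffine.Point} (hP : P ≠ 0) (hQ : Q ≠ 0)
    (h : xc P = xc Q) : P = Q ∨ P = -Q := by
  obtain ⟨x₁, y₁, h₁, rfl⟩ := exists_some_of_ne_zero hP
  obtain ⟨x₂, y₂, h₂, rfl⟩ := exists_some_of_ne_zero hQ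
  exact Affine.Point.X_eq_iff.mp h

/-- The identity `(2y + a₁x + a₃)² = 4x³ + b₂x² + 2b₄x + b₆` on the curve. -/
lemma pc_sq {P : W.toAffine.Point} (hP : P ≠ 0) : pc P ^ 2 = W.Ψ₂Sq.eval (xc P) := by
  obtain ⟨x, y, h, rfl⟩ := exists_some_of_ne_zero hP
  have he := (Affine.equation_iff x y).mp h.1
  simp only [pc_some, xc_some, Affine.negY, Ψ₂Sq, b₂, b₄, b₆, eval_add, eval_mul, eval_C, eval_pow,
    eval_X]
  linear_combination 4 * he

/-- `x(P + Q) = x(P - Q) - ψ(P)ψ(Q) / (x(Q) - x(P))²`. -/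
lemma xc_add_eq {P Q : W.toAffine.Point} (hP : P ≠ 0) (hQ : Q ≠ 0) (hx : xc P ≠ xc Q) :
    P + Q ≠ 0 ∧ P - Q ≠ 0 ∧
      xc (P + Q) = xc (P - Q) - pc P * pc Q / (xc Q - xc P) ^ 2 := by
  obtain ⟨x₁, y₁, h₁, rfl⟩ := exists_some_of_ne_zero hP
  obtain ⟨x₂, y₂, h₂, rfl⟩ := exists_some_of_ne_zero hQ
  simp only [xc_some] at hx
  rw [sub_eq_add_neg, Affine.Point.neg_some, Affine.Point.add_of_X_ne hx,
    Affine.Point.add_of_X_ne hx]
  exact ⟨Affine.Point.some_ne_zero _, Affine.Point.some_ne_zero _,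
    Affine.addX_eq_addX_negY_sub y₁ y₂ hx⟩

/-- The sum and product formulae for the `x`-coordinates of `P + Q` and `P - Q`. -/
lemma xc_add_sub_formula {P Q : W.toAffine.Point} (hP : P ≠ 0) (hQ : Q ≠ 0) (hx : xc P ≠ xc Q) :
    (xc P - xc Q) ^ 2 * (xc (P + Q) + xc (P - Q)) =
        2 * xc P * xc Q * (xc P + xc Q) + W.b₂ * (xc P * xc Q) + W.b₄ * (xc P + xc Q) + W.b₆ ∧
      (xc P - xc Q) ^ 2 * (xc (P + Q) * xc (P - Q)) =
        (xc P * xc Q) ^ 2 - W.b₄ * (xc P * xc Q) - W.b₆ * (xc P + xc Q) - W.b₈ := by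
  obtain ⟨x₁, y₁, h₁, rfl⟩ := exists_some_of_ne_zero hP
  obtain ⟨x₂, y₂, h₂, rfl⟩ := exists_some_of_ne_zero hQ
  simp only [xc_some] at hx ⊢
  rw [sub_eq_add_neg (Affine.Point.some x₁ y₁ h₁), Affine.Point.neg_some,
    Affine.Point.add_of_X_ne hx, Affine.Point.add_of_X_ne hx]
  simp only [xc_some]
  have e₁ := (Affine.equation_iff x₁ y₁).mp h₁.1
  have e₂ := (Affine.equation_iff x₂ y₂).mp h₂.1
  have hne : x₁ - x₂ ≠ 0 := sub_ne_zero.mpr hx
  rw [Affine.slope_of_X_ne hx, Affine.slope_of_X_ne hx]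
  constructor
  · simp only [Affine.addX, Affine.negY, b₂, b₄, b₆]
    field_simp
    linear_combination 2 * e₁ + 2 * e₂
  · simp only [Affine.addX, Affine.negY, b₂, b₄, b₆, b₈]
    field_simp
    linear_combination (W.a₁ * W.a₃ * x₁ - W.a₁ * W.a₃ * x₂ + W.a₁ * x₁ * y₁ - 2 * W.a₁ * x₂ * y₂ + W.a₁^2 * x₁ * x₂ - W.a₁^2 * x₂^2 + 4 * W.a₂ * x₁ * x₂ - W.a₂ * x₁^2 - 2 * W.a₂ * x₂^2 + W.a₃ * y₁ - 2 * W.a₃ * y₂ + W.a₄ * x₁ + W.a₆ + 2 * x₁ * x₂^2 + 2 * x₁^2 * x₂ - x₁^3 - 2 * x₂^3 + y₁^2 - 2 * y₂^2) * e₁ + (-W.a₁ * W.a₃ * x₁ + W.a₁ * W.a₃ * x₂ + W.a₁ * x₂ * y₂ + W.a₁^2 * x₁ * x₂ - W.a₁^2 * x₁^2 + 4 * W.a₂ * x₁ * x₂ - 4 * W.a₂ * x₁^2 - W.a₂ * x₂^2 + W.a₃ * y₂ - 2 * W.a₄ * x₁ + W.a₄ * x₂ - W.a₆ + 2 * x₁ * x₂^2 + 2 * x₁^2 * x₂ - 4 * x₁^3 - x₂^3 + y₂^2) * e₂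

/-- The doubling formula `x(2P) = x - ψ₃(x) / ψ(P)²`. -/
lemma xc_add_self {P : W.toAffine.Point} (hP : P ≠ 0) (hp : pc P ≠ 0) :
    P + P ≠ 0 ∧ xc (P + P) = xc P - W.Ψ₃.eval (xc P) / pc P ^ 2 := by
  obtain ⟨x, y, h, rfl⟩ := exists_some_of_ne_zero hP
  simp only [pc_some] at hp
  have hy : y ≠ W.toAffine.negY x y := sub_ne_zero.mp hp
  rw [Affine.Point.add_self_of_Y_ne hy]
  refine ⟨Affine.Point.some_ne_zero _, ?_⟩
  simp only [xc_some, pc_some]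
  rw [Affine.slope_of_Y_ne rfl hy]
  have e := (Affine.equation_iff x y).mp h.1
  simp only [Affine.addX]
  generalize hq : y - W.toAffine.negY x y = q at hp ⊢
  have key : (3 * x ^ 2 + 2 * W.a₂ * x + W.a₄ - W.a₁ * y) ^ 2
      + W.a₁ * (3 * x ^ 2 + 2 * W.a₂ * x + W.a₄ - W.a₁ * y) * q - (W.a₂ + x + x) * q ^ 2
      = x * q ^ 2 - W.Ψ₃.eval x := by
    rw [← hq]
    simp only [Ψ₃, Affine.negY, b₂, b₄, b₆, b₈, eval_add, eval_mul, eval_C, eval_pow, eval_X,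
      eval_ofNat]
    linear_combination (-W.a₁ ^ 2 - 4 * W.a₂ - 12 * x) * e
  field_simp
  linear_combination key

lemma add_self_eq_zero_of_pc_eq_zero {P : W.toAffine.Point} (hp : pc P = 0) : P + P = 0 := by
  rcases P with _ | ⟨x, y, h⟩
  · exact zero_add 0
  · exact Affine.Point.add_self_of_Y_eq (sub_eq_zero.mp hp)

lemma pc_eq_zero_of_add_self {P : W.toAffine.Point} (h : P + P = 0) : pc P = 0 := by
  by_contra hp
  rcases P with _ | ⟨x, y, hns⟩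
  · exact hp rfl
  · exact (xc_add_self (Affine.Point.some_ne_zero hns) hp).1 h

end FA.EC
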