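/-
The multiplication formula at a point at which no division polynomial vanishes.
-/
import Fermat.Agent.EC.Coord

set_option autoImplicit false
set_option linter.unusedSectionVars false

open WeierstrassCurve Polynomial
open scoped Polynomial.Bivariate

namespace FA.EC

universe u

section eval

variable {R : Type u} [CommRing R] (W : WeierstrassCurve R) {x y : R}

/-- Polynomials congruent in the coordinate ring have equal values on the curve. -/
lemma evalEval_congr_of_mk_eq (h : W.toAffine.Equation x y) {p q : R[X][Y]}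
    (hpq : Affine.CoordinateRing.mk W.toAffine p = Affine.CoordinateRing.mk W.toAffine q) :
    p.evalEval x y = q.evalEval x y := by
  obtain ⟨r, hr⟩ := AdjoinRoot.mk_eq_mk.mp hpq
  have h2 : (p - q).evalEval x y = 0 := by
    rw [hr, evalEval_mul]
    exact mul_eq_zero_of_left h _
  rwa [evalEval_sub, sub_eq_zero] at h2

lemma psi_sq_eval (h : W.toAffine.Equation x y) (n : ℤ) :
    (W.ψ n).evalEval x y ^ 2 = (W.ΨSq n).eval x := by
  rw [← evalEval_pow, ← evalEval_C x y (W.ΨSq n)]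
  refine evalEval_congr_of_mk_eq W h ?_
  rw [map_pow, Affine.CoordinateRing.mk_ψ, Affine.CoordinateRing.mk_Ψ_sq]

lemma phi_eval (h : W.toAffine.Equation x y) (n : ℤ) :
    x * (W.ψ n).evalEval x y ^ 2 - (W.ψ (n + 1)).evalEval x y * (W.ψ (n - 1)).evalEval x y =
      (W.Φ n).eval x := by
  rw [← evalEval_C x y (W.Φ n), ← evalEval_congr_of_mk_eq W h (Affine.CoordinateRing.mk_φ W n),
    WeierstrassCurve.φ]
  simp [evalEval_sub, evalEval_mul, evalEval_pow, evalEval_C]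

end eval

variable {F : Type u} [Field F] [DecidableEq F] {W : WeierstrassCurve F}

/-- `ψₙ₊₁ψₙ₋₁ / ψₙ²` for a sequence `ψ`. -/
def dd (s : ℤ → F) (n : ℤ) : F := s (n + 1) * s (n - 1) / s n ^ 2

/-- The statement `x(nP) = x(P) - ψₙ₊₁ψₙ₋₁ / ψₙ²`. -/
def XForm (P : W.toAffine.Point) (s : ℤ → F) (n : ℤ) : Prop :=
  n • P ≠ 0 ∧ xc (n • P) = xc P - dd s n

section induction

variable {P : W.toAffine.Point} {s : ℤ → F}

lemma xform_one (hP : P ≠ 0) (h0 : s 0 = 0) : XForm P s 1 := by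
  refine ⟨by rwa [one_zsmul], ?_⟩
  rw [one_zsmul, dd]
  norm_num [h0]

/-- `ψ(nP) = ψ₂ₙ / ψₙ⁴`, given the formula for `x((n ± 1)P)` and `x(nP)`. -/
lemma pc_of_xform (hP : P ≠ 0) (h1 : s 1 = 1) (h2 : s 2 = pc P)
    (heven : ∀ m, s (2 * m) * s 2 = s (m - 1) ^ 2 * s m * s (m + 2) - s (m - 2) * s m * s (m + 1) ^ 2)
    (hne : ∀ n, n ≠ 0 → s n ≠ 0) {n : ℤ} (hn : 1 ≤ n) (hn0 : XForm P s n)
    (hm : n = 1 ∨ XForm P s (n - 1)) (hp : XForm P s (n + 1)) :
    pc (n • P) = s (2 * n) / s n ^ 4 := by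
  rcases eq_or_ne n 1 with rfl | hn1
  · rw [one_zsmul, ← h2, mul_one, h1, one_pow, div_one]
  replace hm := hm.resolve_left hn1
  obtain ⟨hq0, hqx⟩ := hn0
  have e1 : s (n + 1) ≠ 0 := hne _ (by omega)
  have e2 : s (n - 1) ≠ 0 := hne _ (by omega)
  have e3 : s n ≠ 0 := hne _ (by omega)
  have hd : dd s n ≠ 0 := div_ne_zero (mul_ne_zero e1 e2) (pow_ne_zero _ e3)
  have hx : xc (n • P) ≠ xc P := by
    rw [hqx]; intro h; exact hd (by linear_combination -h)
  obtain ⟨-, -, h⟩ := xc_add_eq hq0 hP hx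
  have hs2 : pc P ≠ 0 := h2 ▸ hne 2 (by norm_num)
  rw [← add_one_zsmul, show n • P - P = (n - 1) • P by rw [sub_zsmul, one_zsmul]; abel, hp.2, hm.2,
    hqx] at h
  simp only [dd] at h
  rw [show n + 1 + 1 = n + 2 by ring, show n + 1 - 1 = n by ring, show n - 1 + 1 = n by ring,
    show n - 1 - 1 = n - 2 by ring] at h
  have he := heven n
  rw [h2] at he
  rw [eq_div_iff (pow_ne_zero _ e3)]
  field_simp at h
  refine mul_right_cancel₀ hs2 ?_
  have e12 : (s (n + 1) * s (n - 1)) ^ 2 ≠ 0 := pow_ne_zero _ (mul_ne_zero e1 e2)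
  refine mul_right_cancel₀ e12 ?_
  linear_combination (-1 : F) * he * (s (n + 1) * s (n - 1)) ^ 2 + h

theorem xform_of_ne_zero (hP : P ≠ 0) (h0 : s 0 = 0) (h1 : s 1 = 1) (h2 : s 2 = pc P)
    (h3 : s 3 = W.Ψ₃.eval (xc P)) (h4 : s 4 = W.preΨ₄.eval (xc P) * pc P)
    (heven : ∀ m, s (2 * m) * s 2 = s (m - 1) ^ 2 * s m * s (m + 2) - s (m - 2) * s m * s (m + 1) ^ 2)
    (hodd : ∀ m, s (2 * m + 1) = s (m + 2) * s m ^ 3 - s (m - 1) * s (m + 1) ^ 3)
    (hne : ∀ n, n ≠ 0 → s n ≠ 0) (N : ℕ) (hN : 1 ≤ N) : XForm P s N := by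
  induction N using Nat.strong_induction_on with
  | _ N ih =>
  rcases eq_or_ne N 1 with rfl | hN1
  · exact_mod_cast xform_one hP h0
  have hpcP : pc P ≠ 0 := h2 ▸ hne 2 (by norm_num)
  rcases eq_or_ne N 2 with rfl | hN2
  · obtain ⟨h, hx⟩ := xc_add_self hP hpcP
    refine ⟨by rw [Nat.cast_two, two_zsmul]; exact h, ?_⟩
    rw [Nat.cast_two, two_zsmul, hx, dd]
    norm_num [h1, h2, h3]
  have pcs : ∀ k : ℕ, 1 ≤ k → k + 1 < N → pc ((k : ℤ) • P) = s (2 * k) / s k ^ 4 := by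
    intro k hk hkN
    refine pc_of_xform hP h1 h2 heven hne (by omega) (ih k (by omega) hk) ?_ ?_
    · rcases eq_or_ne k 1 with rfl | hk1
      · exact Or.inl (by norm_num)
      · right; rw [show ((k : ℤ) - 1) = ((k - 1 : ℕ) : ℤ) by omega]
        exact ih _ (by omega) (by omega)
    · exact_mod_cast ih (k + 1) hkN (by omega)
  rcases eq_or_ne N 3 with rfl | hN3
  · obtain ⟨hQ, hQx⟩ := ih 2 (by omega) (by omega)
    have e2 : s 2 ≠ 0 := hne _ (by norm_num)
    have e3 : s 3 ≠ 0 := hne _ (by norm_num)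
    rw [dd, show ((2 : ℕ) : ℤ) + 1 = 3 from rfl, show ((2 : ℕ) : ℤ) - 1 = 1 from rfl, h1, mul_one]
      at hQx
    rw [Nat.cast_two] at hQ hQx
    have hx : xc ((2 : ℤ) • P) ≠ xc P := by
      rw [hQx]; intro h
      exact div_ne_zero e3 (pow_ne_zero 2 e2) (by linear_combination -h)
    obtain ⟨hne3, -, -⟩ := xc_add_eq hQ hP hx
    obtain ⟨hsum, -⟩ := xc_add_sub_formula hQ hP hx
    rw [← add_one_zsmul] at hne3
    rw [← add_one_zsmul, show (2 : ℤ) • P - P = P by rw [two_zsmul]; abel, hQx] at hsum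
    refine ⟨hne3, ?_⟩
    rw [dd]
    norm_num
    rw [h4, h2]
    norm_num at hsum
    have hs2 := h2
    rw [h2] at hsum e2
    have key : W.preΨ₄.eval (xc P) = W.Ψ₃.eval (xc P) * (6 * xc P ^ 2 + W.b₂ * xc P + W.b₄)
        - W.Ψ₂Sq.eval (xc P) ^ 2 := by
      simp only [preΨ₄, Ψ₃, Ψ₂Sq, eval_add, eval_mul, eval_C, eval_pow, eval_X, eval_ofNat]
      linear_combination (xc P ^ 2) * W.b_relation
    have hp2 := pc_sq hP
    simp only [Ψ₂Sq, eval_add, eval_mul, eval_C, eval_pow, eval_X] at hp2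
    rw [key, ← pc_sq hP, ← h3]
    field_simp at hsum ⊢
    linear_combination hsum - pc P ^ 4 * hp2
  -- the inductive step, splitting on parity
  obtain ⟨m, rfl | rfl⟩ := N.even_or_odd'
  · -- `N = 2 * m`, doubling `mP`
    have hm : 2 ≤ m := by omega
    obtain ⟨hQ0, hQx⟩ := ih m (by omega) (by omega)
    have hp := ih (m + 1) (by omega) (by omega)
    have hq := ih (m - 1) (by omega) (by omega)
    have hpc := pcs m (by omega) (by omega)
    push_cast at hp
    rw [show ((m - 1 : ℕ) : ℤ) = (m : ℤ) - 1 by omega] at hq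
    have e1 : s ((m : ℤ) + 1) ≠ 0 := hne _ (by omega)
    have e2 : s ((m : ℤ) - 1) ≠ 0 := hne _ (by omega)
    have e3 : s (m : ℤ) ≠ 0 := hne _ (by omega)
    have e4 : s (2 * (m : ℤ)) ≠ 0 := hne _ (by omega)
    have hx : xc ((m : ℤ) • P) ≠ xc P := by
      rw [hQx]; intro h
      exact div_ne_zero (mul_ne_zero e1 e2) (pow_ne_zero 2 e3) (by linear_combination (norm := (simp only [dd]; ring1)) -h)
    obtain ⟨hsum, hprod⟩ := xc_add_sub_formula hQ0 hP hx
    rw [← add_one_zsmul, show (m : ℤ) • P - P = ((m : ℤ) - 1) • P by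
      rw [sub_zsmul, one_zsmul]; abel, hp.2, hq.2] at hsum hprod
    have hpq : pc ((m : ℤ) • P) ≠ 0 := by
      rw [hpc]; exact div_ne_zero e4 (pow_ne_zero _ e3)
    obtain ⟨hne2, hx2⟩ := xc_add_self hQ0 hpq
    rw [← two_zsmul, smul_smul] at hne2 hx2
    have hN : ((2 * m : ℕ) : ℤ) = 2 * m := by push_cast; ring
    refine ⟨hN ▸ hne2, ?_⟩
    rw [hN, hx2]
    have key : W.Ψ₃.eval (xc ((m : ℤ) • P)) + dd s m * pc ((m : ℤ) • P) ^ 2 =
        -(dd s m ^ 2) * ((dd s (m + 1) - dd s m) * (dd s (m - 1) - dd s m)) := by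
      rw [pc_sq hQ0]
      rw [hQx] at hsum hprod ⊢
      simp only [Ψ₃, Ψ₂Sq, eval_add, eval_mul, eval_C, eval_pow, eval_X, eval_ofNat]
      linear_combination hprod - (xc P - dd s m) * hsum
    rw [hpc] at key ⊢
    rw [hQx] at key ⊢
    simp only [dd] at key ⊢
    rw [show (m : ℤ) + 1 + 1 = m + 2 by ring, show (m : ℤ) + 1 - 1 = m by ring,
      show (m : ℤ) - 1 + 1 = m by ring, show (m : ℤ) - 1 - 1 = m - 2 by ring] at key
    have o1 := hodd (m : ℤ)
    have o2 := hodd ((m : ℤ) - 1)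
    rw [show 2 * ((m : ℤ) - 1) + 1 = 2 * m - 1 by ring, show (m : ℤ) - 1 + 2 = m + 1 by ring,
      show (m : ℤ) - 1 + 1 = m by ring, show (m : ℤ) - 1 - 1 = m - 2 by ring] at o2
    rw [o1, o2]
    field_simp at key ⊢
    linear_combination -key
  · -- `N = 2 * m + 1`, adding `(m + 1)P` and `mP`
    have hm : 2 ≤ m := by omega
    obtain ⟨hA0, hAx⟩ := ih (m + 1) (by omega) (by omega)
    obtain ⟨hB0, hBx⟩ := ih m (by omega) (by omega)
    have hpA := pcs (m + 1) (by omega) (by omega)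
    have hpB := pcs m (by omega) (by omega)
    push_cast at hA0 hAx hpA
    have e1 : s ((m : ℤ) + 1) ≠ 0 := hne _ (by omega)
    have e3 : s (m : ℤ) ≠ 0 := hne _ (by omega)
    have e4 : s (2 * (m : ℤ) + 1) ≠ 0 := hne _ (by omega)
    have hdiff : xc ((m : ℤ) • P) - xc (((m : ℤ) + 1) • P) =
        s (2 * m + 1) / (s m ^ 2 * s (m + 1) ^ 2) := by
      rw [hAx, hBx, hodd]
      simp only [dd]
      rw [show (m : ℤ) + 1 + 1 = m + 2 by ring, show (m : ℤ) + 1 - 1 = m by ring]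
      field_simp
      ring
    have hx : xc (((m : ℤ) + 1) • P) ≠ xc ((m : ℤ) • P) := by
      intro h
      rw [h, sub_self] at hdiff
      exact div_ne_zero e4 (mul_ne_zero (pow_ne_zero _ e3) (pow_ne_zero _ e1)) hdiff.symm
    obtain ⟨hne', -, h⟩ := xc_add_eq hA0 hB0 hx
    rw [← add_zsmul, ← sub_smul, hpA, hpB, hdiff, show (m : ℤ) + 1 + m = 2 * m + 1 by ring,
      show (m : ℤ) + 1 - m = 1 by ring, one_zsmul] at h
    rw [← add_zsmul, show (m : ℤ) + 1 + m = 2 * m + 1 by ring] at hne'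
    have hN : ((2 * m + 1 : ℕ) : ℤ) = 2 * m + 1 := by push_cast; ring
    refine ⟨hN ▸ hne', ?_⟩
    rw [hN, h, dd, show 2 * (m : ℤ) + 1 + 1 = 2 * (m + 1) by ring, add_sub_cancel_right]
    field_simp

end induction

end FA.EC
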