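/-
Polynomial identities between division polynomials, obtained from the generic point of the
universal Weierstrass curve.
-/
import Fermat.Agent.EC.GenericMul
import Mathlib.AlgebraicGeometry.EllipticCurve.DivisionPolynomial.Degree
import Mathlib.FieldTheory.IsAlgClosed.AlgebraicClosure
import Mathlib.Algebra.MvPolynomial.CommRing
import Mathlib.RingTheory.Polynomial.UniqueFactorization

set_option autoImplicit false
set_option linter.unusedSectionVars false

open WeierstrassCurve Polynomial

namespace FA.EC

universe u

/-- The three quadratic forms of `addSubMap`, as functions on vectors. -/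
def asub {R : Type u} [CommRing R] (W : WeierstrassCurve R) (s : Fin 3 → R) : Fin 3 → R :=
  ![s 0 ^ 2 - W.b₄ * s 0 * s 2 - W.b₆ * s 1 * s 2 - W.b₈ * s 2 ^ 2,
    2 * s 1 * s 0 + W.b₂ * s 0 * s 2 + W.b₄ * s 1 * s 2 + W.b₆ * s 2 ^ 2,
    s 1 ^ 2 - 4 * s 0 * s 2]

/-- The symmetric product of two vectors representing points of the projective line. -/
def symPair {R : Type u} [CommRing R] (v w : Fin 2 → R) : Fin 3 → R :=
  ![v 0 * w 0, v 0 * w 1 + v 1 * w 0, v 1 * w 1]

/-- `(Φₙ(x), ΨSqₙ(x))`. -/
noncomputable def numDen {R : Type u} [CommRing R] (W : WeierstrassCurve R) (n : ℤ) (x : R) :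
    Fin 2 → R :=
  ![(W.Φ n).eval x, (W.ΨSq n).eval x]

lemma asub_eq_eval {R : Type u} [CommRing R] (W : WeierstrassCurve R) (s : Fin 3 → R) :
    asub W s = fun i ↦ (W.addSubMap i).eval s := by
  funext i
  fin_cases i <;> simp [asub, addSubMap]

lemma asub_smul {R : Type u} [CommRing R] (W : WeierstrassCurve R) (c : R) (s : Fin 3 → R) :
    asub W (c • s) = c ^ 2 • asub W s := by
  funext i
  fin_cases i <;> simp [asub] <;> ring

lemma symPair_smul {R : Type u} [CommRing R] (c d : R) (v w : Fin 2 → R) :
    symPair (c • v) (d • w) = (c * d) • symPair v w := by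
  funext i
  fin_cases i <;> simp [symPair] <;> ring

section generic

variable {F : Type u} [Field F] [DecidableEq F] (W : WeierstrassCurve F) {x y : F}

variable (h : W.toAffine.Nonsingular x y)
  (hne : ∀ n : ℤ, n ≠ 0 → (W.ψ n).evalEval x y ≠ 0)

include hne in
lemma xform_generic (N : ℕ) (hN : 1 ≤ N) :
    XForm (Affine.Point.some x y h) (fun n ↦ (W.ψ n).evalEval x y) N := by
  refine xform_of_ne_zero (Affine.Point.some_ne_zero h) ?_ ?_ ?_ ?_ ?_ ?_ ?_ hne N hN
  · simp
  · simp
  · simp only [ψ_two, pc_some, ψ₂, Affine.evalEval_polynomialY, Affine.negY]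
    ring
  · simp [xc_some, evalEval_C]
  · simp only [ψ_four, evalEval_mul, evalEval_C, xc_some, pc_some, ψ₂,
      Affine.evalEval_polynomialY, Affine.negY]
    ring
  · intro m
    simpa using congrArg (evalEval x y) (W.ψ_even m)
  · intro m
    simpa using congrArg (evalEval x y) (W.ψ_odd m)

include h hne in
lemma numDen_generic (n : ℕ) :
    numDen W n x =
      ((W.ψ n).evalEval x y ^ 2 + if n = 0 then 1 else 0) • (n • Affine.Point.some x y h).xRep := by
  rcases eq_or_ne n 0 with rfl | hn
  · simp [numDen]
  obtain ⟨h0, hx⟩ := xform_generic W h hne n (by omega)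
  rw [natCast_zsmul] at h0 hx
  have hs : (W.ψ n).evalEval x y ≠ 0 := hne _ (by omega)
  rw [if_neg hn, add_zero, xRep_of_ne_zero h0, hx, dd, xc_some]
  funext i
  fin_cases i
  · simp only [numDen, Fin.zero_eta, Matrix.cons_val_zero, Pi.smul_apply, smul_eq_mul]
    rw [← phi_eval W h.1 (n : ℤ)]
    field_simp
  · simp [numDen, psi_sq_eval W h.1]

/-- Sum and product formulae as an identity of vectors. -/
lemma asub_xRep_of_ne {P Q : W.toAffine.Point} (hP : P ≠ 0) (hQ : Q ≠ 0) (hx : xc P ≠ xc Q) :
    asub W (symPair P.xRep Q.xRep) =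
      (xc P - xc Q) ^ 2 • symPair (P + Q).xRep (P - Q).xRep := by
  obtain ⟨h1, h2, -⟩ := xc_add_eq hP hQ hx
  obtain ⟨hs, hp⟩ := xc_add_sub_formula hP hQ hx
  rw [xRep_of_ne_zero hP, xRep_of_ne_zero hQ, xRep_of_ne_zero h1, xRep_of_ne_zero h2]
  funext i
  fin_cases i <;> simp [asub, symPair]
  · linear_combination -hp
  · linear_combination -hs
  · ring

/-- The doubling formula as an identity of vectors. -/
lemma asub_xRep_self {P : W.toAffine.Point} (hP : P ≠ 0) (hp : pc P ≠ 0) :
    asub W (symPair P.xRep P.xRep) =
      pc P ^ 2 • symPair (P + P).xRep (0 : W.toAffine.Point).xRep := by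
  obtain ⟨h1, h2⟩ := xc_add_self hP hp
  rw [xRep_of_ne_zero hP, xRep_of_ne_zero h1, h2, Affine.Point.xRep_zero]
  have h3 := pc_sq hP
  simp only [Ψ₂Sq, eval_add, eval_mul, eval_C, eval_pow, eval_X] at h3
  funext i
  fin_cases i <;> simp [asub, symPair, Ψ₃]
  · field_simp
    linear_combination -(xc P) * h3
  · linear_combination -h3
  · ring

include h hne in
lemma identity_two_mul_generic (m : ℕ) :
    asub W (symPair (numDen W m x) (numDen W m x)) =
      symPair (numDen W (2 * m : ℕ) x) ![1, 0] := by
  rw [numDen_generic W h hne, numDen_generic W h hne]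
  rcases eq_or_ne m 0 with rfl | hm
  · funext i; fin_cases i <;> simp [asub, symPair]
  simp only [if_neg hm, if_neg (show 2 * m ≠ 0 by omega), add_zero]
  rw [symPair_smul, asub_smul]
  have hA := xform_generic W h hne m (by omega)
  have hB := xform_generic W h hne (m + 1) (by omega)
  have hP0 : Affine.Point.some x y h ≠ 0 := Affine.Point.some_ne_zero h
  have hpc : pc ((m : ℤ) • Affine.Point.some x y h) =
      (W.ψ (2 * m)).evalEval x y / (W.ψ m).evalEval x y ^ 4 := by
    refine pc_of_xform (s := fun n ↦ (W.ψ n).evalEval x y) hP0 (by simp) ?_ ?_ hne (by omega) hA ?_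
      (by exact_mod_cast hB)
    · simp only [ψ_two, pc_some, ψ₂, Affine.evalEval_polynomialY, Affine.negY]; ring
    · intro k; simpa using congrArg (evalEval x y) (W.ψ_even k)
    · rcases eq_or_ne m 1 with rfl | hm1
      · exact Or.inl (by norm_num)
      · right
        rw [show ((m : ℤ) - 1) = ((m - 1 : ℕ) : ℤ) by omega]
        exact xform_generic W h hne (m - 1) (by omega)
  rw [natCast_zsmul] at hpc
  have h2 : (W.ψ (2 * m)).evalEval x y ≠ 0 := hne _ (by omega)
  have h1 : (W.ψ m).evalEval x y ≠ 0 := hne _ (by omega)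
  have hAP : m • Affine.Point.some x y h ≠ 0 := natCast_zsmul (Affine.Point.some x y h) m ▸ hA.1
  rw [asub_xRep_self W hAP (by rw [hpc]; exact div_ne_zero h2 (pow_ne_zero _ h1)), ← two_nsmul,
    ← mul_nsmul', smul_smul, hpc, Affine.Point.xRep_zero]
  funext i
  fin_cases i <;> simp [symPair] <;> field_simp <;> simp

include h hne in
lemma identity_two_mul_add_one_generic (m : ℕ) :
    asub W (symPair (numDen W (m + 1 : ℕ) x) (numDen W m x)) =
      symPair (numDen W (2 * m + 1 : ℕ) x) ![x, 1] := by
  rw [numDen_generic W h hne, numDen_generic W h hne, numDen_generic W h hne]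
  simp only [if_neg (show m + 1 ≠ 0 by omega), if_neg (show 2 * m + 1 ≠ 0 by omega), add_zero]
  rcases eq_or_ne m 0 with rfl | hm
  · funext i; fin_cases i <;> simp [asub, symPair] <;> ring
  simp only [if_neg hm, add_zero]
  rw [symPair_smul, asub_smul]
  obtain ⟨hA0, hAx⟩ := xform_generic W h hne (m + 1) (by omega)
  obtain ⟨hB0, hBx⟩ := xform_generic W h hne m (by omega)
  rw [natCast_zsmul] at hA0 hAx hB0 hBx
  have e1 : (W.ψ ((m : ℤ) + 1)).evalEval x y ≠ 0 := hne _ (by omega)
  have e2 : (W.ψ m).evalEval x y ≠ 0 := hne _ (by omega)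
  have e4 : (W.ψ (2 * (m : ℤ) + 1)).evalEval x y ≠ 0 := hne _ (by omega)
  have hdiff : xc (m • Affine.Point.some x y h) - xc ((m + 1) • Affine.Point.some x y h) =
      (W.ψ (2 * m + 1)).evalEval x y /
        ((W.ψ m).evalEval x y ^ 2 * (W.ψ ((m : ℤ) + 1)).evalEval x y ^ 2) := by
    rw [hAx, hBx]
    simp only [dd, Nat.cast_add, Nat.cast_one]
    rw [show (m : ℤ) + 1 + 1 = m + 2 by ring, show (m : ℤ) + 1 - 1 = m by ring,
      show (W.ψ (2 * (m : ℤ) + 1)).evalEval x y = _ from congrArg (evalEval x y) (W.ψ_odd m)]
    simp only [evalEval_sub, evalEval_mul, evalEval_pow]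
    field_simp
    ring
  have hx : xc ((m + 1) • Affine.Point.some x y h) ≠ xc (m • Affine.Point.some x y h) := by
    intro h'
    rw [h', sub_self] at hdiff
    exact div_ne_zero e4 (mul_ne_zero (pow_ne_zero _ e2) (pow_ne_zero _ e1)) hdiff.symm
  rw [asub_xRep_of_ne W hA0 hB0 hx, ← add_nsmul, show m + 1 + m = 2 * m + 1 by ring,
    show (m + 1) • Affine.Point.some x y h - m • Affine.Point.some x y h =
      Affine.Point.some x y h by rw [succ_nsmul]; abel,
    Affine.Point.xRep_some, smul_smul,
    show (xc ((m + 1) • Affine.Point.some x y h) - xc (m • Affine.Point.some x y h)) =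
      -(xc (m • Affine.Point.some x y h) - xc ((m + 1) • Affine.Point.some x y h)) by ring, hdiff]
  push_cast
  funext i
  fin_cases i <;> simp [symPair] <;> field_simp <;> simp

end generic

section universal

/-- The ring of coefficients of the universal Weierstrass curve. -/
abbrev UCoeff : Type := MvPolynomial (Fin 5) ℤ

/-- The universal Weierstrass curve. -/
noncomputable def univCurve : WeierstrassCurve UCoeff :=
  ⟨MvPolynomial.X 0, MvPolynomial.X 1, MvPolynomial.X 2, MvPolynomial.X 3, MvPolynomial.X 4⟩

lemma univCurve_Δ_ne_zero : univCurve.Δ ≠ 0 := by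
  intro h
  have h' := congrArg (MvPolynomial.eval (![0, 0, 1, 0, 0] : Fin 5 → ℤ)) h
  rw [← WeierstrassCurve.map_Δ, map_zero] at h'
  simp [univCurve, WeierstrassCurve.map, Δ, b₂, b₄, b₆, b₈] at h'

lemma asub_map {R S : Type u} [CommRing R] [CommRing S] (f : R →+* S) (W : WeierstrassCurve R)
    (s : Fin 3 → R) : asub (W.map f) (f ∘ s) = f ∘ asub W s := by
  funext i
  fin_cases i <;> simp [asub, map_ofNat]

lemma symPair_map {R : Type*} {S : Type*} [CommRing R] [CommRing S] (f : R →+* S)
    (v w : Fin 2 → R) : symPair (f ∘ v) (f ∘ w) = f ∘ symPair v w := by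
  funext i
  fin_cases i <;> simp [symPair]

lemma numDen_map {R : Type*} {S : Type*} [CommRing R] [CommRing S] (f : R →+* S)
    (W : WeierstrassCurve R) (n : ℤ) (x : R) :
    numDen (W.map f) n (f x) = f ∘ numDen W n x := by
  funext i
  fin_cases i <;> simp [numDen, eval_map, eval₂_at_apply]

/-- The field of the generic point. -/
abbrev UField : Type := AlgebraicClosure (FractionRing (Polynomial UCoeff))

/-- The generic `x`-coordinate and coefficients. -/
noncomputable def toUField : Polynomial UCoeff →+* UField :=
  (algebraMap (FractionRing (Polynomial UCoeff)) UField).comp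
    (algebraMap (Polynomial UCoeff) (FractionRing (Polynomial UCoeff)))

lemma toUField_injective : Function.Injective toUField :=
  (algebraMap (FractionRing (Polynomial UCoeff)) UField).injective.comp
    (IsFractionRing.injective (Polynomial UCoeff) (FractionRing (Polynomial UCoeff)))

/-- The universal curve over the ring `ℤ[a₁, …, a₆][x]`. -/
noncomputable abbrev univCurveX : WeierstrassCurve (Polynomial UCoeff) := univCurve.map C

/-- The universal curve over the field of the generic point. -/
noncomputable abbrev univCurveK : WeierstrassCurve UField := univCurveX.map toUField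

lemma numDen_univCurveX (n : ℤ) :
    numDen univCurveX n (X : Polynomial UCoeff) = ![univCurve.Φ n, univCurve.ΨSq n] := by
  simp [numDen, eval_map]

lemma exists_generic_point :
    ∃ (y : UField) (_ : (univCurveK).toAffine.Nonsingular (toUField X) y),
      ∀ n : ℤ, n ≠ 0 → ((univCurveK).ψ n).evalEval (toUField X) y ≠ 0 := by
  set x : UField := toUField X
  set E : WeierstrassCurve UField := univCurveK
  have hΔ : E.Δ ≠ 0 := by
    simp only [E, univCurveK, univCurveX, WeierstrassCurve.map_Δ]
    exact (map_ne_zero_iff _ toUField_injective).mpr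
      ((map_ne_zero_iff _ C_injective).mpr univCurve_Δ_ne_zero)
  set g : Polynomial UField := X ^ 2 + C (E.a₁ * x + E.a₃) * X -
    C (x ^ 3 + E.a₂ * x ^ 2 + E.a₄ * x + E.a₆)
  have hg : g.degree = 2 := by simp only [g]; compute_degree!
  obtain ⟨y, hy⟩ := IsAlgClosed.exists_root g (by rw [hg]; norm_num)
  have he : E.toAffine.Equation x y := by
    rw [Affine.equation_iff]
    simp only [IsRoot.def, g, eval_sub, eval_add, eval_mul, eval_pow, eval_C, eval_X] at hy
    linear_combination hy
  have : E.IsElliptic := ⟨hΔ.isUnit⟩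
  refine ⟨y, Affine.equation_iff_nonsingular.mp he, fun n hn h0 ↦ ?_⟩
  have h1 := psi_sq_eval E he n
  rw [h0, zero_pow two_ne_zero, show (E.ΨSq n).eval x = numDen E n x 1 from rfl] at h1
  simp only [E, univCurveK, x] at h1
  rw [numDen_map, numDen_univCurveX] at h1
  refine univCurve.ΨSq_ne_zero (n := n) ?_ ((map_eq_zero_iff _ toUField_injective).mp h1.symm)
  exact Int.cast_ne_zero.mpr hn

/-- The ring homomorphism specialising the universal curve and its `x`-coordinate. -/
noncomputable def specialize {R : Type*} [CommRing R] (W : WeierstrassCurve R) (x : R) :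
    Polynomial UCoeff →+* R :=
  eval₂RingHom (MvPolynomial.eval₂Hom (Int.castRingHom R) ![W.a₁, W.a₂, W.a₃, W.a₄, W.a₆]) x

lemma univCurveX_map_specialize {R : Type*} [CommRing R] (W : WeierstrassCurve R) (x : R) :
    univCurveX.map (specialize W x) = W := by
  ext <;> simp [univCurveX, univCurve, specialize]

lemma specialize_X {R : Type*} [CommRing R] (W : WeierstrassCurve R) (x : R) :
    specialize W x X = x := by
  simp [specialize]

variable {R : Type} [CommRing R]

lemma identity_two_mul_univ (m : ℕ) :
    asub univCurveX (symPair (numDen univCurveX m X) (numDen univCurveX m X)) =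
      symPair (numDen univCurveX (2 * m : ℕ) X) ![1, 0] := by
  classical
  obtain ⟨y, h, hne⟩ := exists_generic_point
  have := identity_two_mul_generic univCurveK h hne m
  rw [numDen_map, numDen_map, symPair_map, asub_map,
    show (![1, 0] : Fin 2 → UField) = toUField ∘ ![1, 0] by funext i; fin_cases i <;> simp,
    symPair_map] at this
  funext i
  exact toUField_injective (congrFun this i)

lemma identity_two_mul_add_one_univ (m : ℕ) :
    asub univCurveX (symPair (numDen univCurveX (m + 1 : ℕ) X) (numDen univCurveX m X)) =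
      symPair (numDen univCurveX (2 * m + 1 : ℕ) X) ![X, 1] := by
  classical
  obtain ⟨y, h, hne⟩ := exists_generic_point
  have := identity_two_mul_add_one_generic univCurveK h hne m
  rw [numDen_map, numDen_map, numDen_map, symPair_map, asub_map,
    show (![toUField X, 1] : Fin 2 → UField) = toUField ∘ ![X, 1] by
      funext i; fin_cases i <;> simp,
    symPair_map] at this
  funext i
  exact toUField_injective (congrFun this i)

end universal

section specialise

lemma asub_map' {R : Type*} {S : Type*} [CommRing R] [CommRing S] (f : R →+* S)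
    (W : WeierstrassCurve R) (s : Fin 3 → R) (i : Fin 3) :
    f (asub W s i) =
      ![f (s 0) ^ 2 - (W.map f).b₄ * f (s 0) * f (s 2) - (W.map f).b₆ * f (s 1) * f (s 2) -
          (W.map f).b₈ * f (s 2) ^ 2,
        2 * f (s 1) * f (s 0) + (W.map f).b₂ * f (s 0) * f (s 2) +
          (W.map f).b₄ * f (s 1) * f (s 2) + (W.map f).b₆ * f (s 2) ^ 2,
        f (s 1) ^ 2 - 4 * f (s 0) * f (s 2)] i := by
  fin_cases i <;> simp [asub, map_ofNat]

variable {R : Type u} [CommRing R] (W : WeierstrassCurve R) (x : R)

/-- The doubling identity for division polynomials. -/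
theorem numDen_two_mul (m : ℕ) :
    asub W (symPair (numDen W m x) (numDen W m x)) = symPair (numDen W (2 * m : ℕ) x) ![1, 0] := by
  have hn : ∀ n : ℤ, numDen W n x = specialize W x ∘ numDen univCurveX n X := fun n ↦ by
    rw [← numDen_map, univCurveX_map_specialize, specialize_X]
  funext i
  have h := congrArg (specialize W x) (congrFun (identity_two_mul_univ m) i)
  rw [asub_map', univCurveX_map_specialize] at h
  rw [hn, hn, symPair_map,
    show (![1, 0] : Fin 2 → R) = specialize W x ∘ ![1, 0] by funext j; fin_cases j <;> simp,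
    symPair_map, Function.comp_apply, ← h]
  rfl

/-- The doubling-and-adding identity for division polynomials. -/
theorem numDen_two_mul_add_one (m : ℕ) :
    asub W (symPair (numDen W (m + 1 : ℕ) x) (numDen W m x)) =
      symPair (numDen W (2 * m + 1 : ℕ) x) ![x, 1] := by
  have hn : ∀ n : ℤ, numDen W n x = specialize W x ∘ numDen univCurveX n X := fun n ↦ by
    rw [← numDen_map, univCurveX_map_specialize, specialize_X]
  funext i
  have h := congrArg (specialize W x) (congrFun (identity_two_mul_add_one_univ m) i)
  rw [asub_map', univCurveX_map_specialize] at h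
  rw [hn, hn, hn, symPair_map,
    show (![x, 1] : Fin 2 → R) = specialize W x ∘ ![X, 1] by
      funext j; fin_cases j <;> simp [specialize_X],
    symPair_map, Function.comp_apply, ← h]
  rfl

end specialise

end FA.EC
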