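/-
The multiplication-by-`n` formula on an elliptic curve.

* `FA.EC.exists_smul_xRep_zsmul`: `(Φₙ(x) : ΨSqₙ(x))` is the `x`-coordinate of `nP` on `ℙ¹`.
* `FA.EC.zsmul_eq_zero_iff`: `nP = 0 ↔ ΨSqₙ(x) = 0`.
* `FA.EC.xc_zsmul`: `x(nP) = Φₙ(x) / ΨSqₙ(x)`.
-/
import Fermat.Agent.EC.DivPolyIdentities

set_option autoImplicit false
set_option linter.unusedSectionVars false

open WeierstrassCurve Polynomial

namespace FA.EC

universe u

variable {F : Type u} [Field F] [DecidableEq F] {W : WeierstrassCurve F}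

lemma symPair_comm {R : Type u} [CommRing R] (v w : Fin 2 → R) : symPair v w = symPair w v := by
  funext i
  fin_cases i <;> simp [symPair] <;> ring

lemma asub_xRep [W.IsElliptic] (P Q : W.toAffine.Point) :
    ∃ c : F, c ≠ 0 ∧ asub W (symPair P.xRep Q.xRep) = c • symPair (P + Q).xRep (P - Q).xRep := by
  rcases eq_or_ne P 0 with rfl | hP
  · refine ⟨1, one_ne_zero, ?_⟩
    simp only [zero_add, zero_sub, Affine.Point.xRep_neg, one_smul, Affine.Point.xRep_zero]
    funext i
    fin_cases i <;> simp [asub, symPair] <;> ring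
  rcases eq_or_ne Q 0 with rfl | hQ
  · refine ⟨1, one_ne_zero, ?_⟩
    simp only [add_zero, sub_zero, one_smul, Affine.Point.xRep_zero]
    funext i
    fin_cases i <;> simp [asub, symPair] <;> ring
  by_cases hx : xc P = xc Q
  · have key : asub W (symPair P.xRep Q.xRep) = asub W (symPair P.xRep P.xRep) := by
      rw [xRep_of_ne_zero hP, xRep_of_ne_zero hQ, hx]
    have key2 : symPair (P + Q).xRep (P - Q).xRep =
        symPair (P + P).xRep (0 : W.toAffine.Point).xRep := by
      rcases eq_or_eq_neg_of_xc_eq hP hQ hx with rfl | h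
      · rw [sub_self]
      · rw [eq_neg_iff_add_eq_zero] at h
        rw [h, show P - Q = P + P - (P + Q) by abel, h, sub_zero, symPair_comm]
    rw [key, key2]
    by_cases hp : pc P = 0
    · rw [add_self_eq_zero_of_pc_eq_zero hp, xRep_of_ne_zero hP, Affine.Point.xRep_zero]
      have hs : symPair ![xc P, 1] ![xc P, 1] ≠ 0 := fun h ↦ by
        simpa [symPair] using congrFun h 2
      have hne := addSubMap_ne_zero W hs
      rw [← asub_eq_eval] at hne
      have h2 := pc_sq hP
      simp only [hp, Ψ₂Sq, eval_add, eval_mul, eval_C, eval_pow, eval_X] at h2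
      refine ⟨asub W (symPair ![xc P, 1] ![xc P, 1]) 0, fun h0 ↦ hne ?_, ?_⟩
      · funext i
        fin_cases i
        · exact h0
        · simp [asub, symPair]
          linear_combination -h2
        · simp [asub, symPair]
          ring
      · funext i
        fin_cases i <;> simp [asub, symPair]
        · linear_combination -h2
        · ring
    · exact ⟨_, pow_ne_zero 2 hp, asub_xRep_self W hP hp⟩
  · exact ⟨_, pow_ne_zero 2 (sub_ne_zero.mpr hx), asub_xRep_of_ne W hP hQ hx⟩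

/-- `(Φₙ(x), ΨSqₙ(x))` represents the `x`-coordinate of `nP`. -/
theorem exists_smul_xRep_nsmul [W.IsElliptic] {x y : F} (h : W.toAffine.Nonsingular x y) (n : ℕ) :
    ∃ u : F, u ≠ 0 ∧ numDen W n x = u • (n • Affine.Point.some x y h).xRep := by
  induction n using Nat.strong_induction_on with
  | _ n ih =>
  rcases eq_or_ne n 0 with rfl | hn0
  · exact ⟨1, one_ne_zero, by simp [numDen]⟩
  rcases eq_or_ne n 1 with rfl | hn1
  · exact ⟨1, one_ne_zero, by simp [numDen]⟩
  obtain ⟨m, rfl | rfl⟩ := n.even_or_odd'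
  · obtain ⟨u, hu, hum⟩ := ih m (by omega)
    obtain ⟨c, hc, hcm⟩ := asub_xRep (m • Affine.Point.some x y h) (m • Affine.Point.some x y h)
    refine ⟨(u * u) ^ 2 * c, mul_ne_zero (pow_ne_zero 2 (mul_ne_zero hu hu)) hc, ?_⟩
    have key := numDen_two_mul W x m
    rw [hum, symPair_smul, asub_smul, hcm, smul_smul, sub_self, ← two_nsmul, ← mul_nsmul',
      Affine.Point.xRep_zero] at key
    have k0 := congrFun key 0
    have k1 := congrFun key 1
    simp [symPair] at k0 k1
    funext i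
    fin_cases i <;> simp [← k0, ← k1]
  · obtain ⟨u, hu, hum⟩ := ih (m + 1) (by omega)
    obtain ⟨v, hv, hvm⟩ := ih m (by omega)
    obtain ⟨c, hc, hcm⟩ :=
      asub_xRep ((m + 1) • Affine.Point.some x y h) (m • Affine.Point.some x y h)
    refine ⟨(u * v) ^ 2 * c, mul_ne_zero (pow_ne_zero 2 (mul_ne_zero hu hv)) hc, ?_⟩
    have key := numDen_two_mul_add_one W x m
    rw [hum, hvm, symPair_smul, asub_smul, hcm, smul_smul, ← add_nsmul,
      show m + 1 + m = 2 * m + 1 by ring,
      show (m + 1) • Affine.Point.some x y h - m • Affine.Point.some x y h =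
        Affine.Point.some x y h by rw [succ_nsmul]; abel,
      Affine.Point.xRep_some] at key
    have k1 := congrFun key 1
    have k2 := congrFun key 2
    simp [symPair] at k1 k2
    funext i
    fin_cases i <;> simp [← k2]
    rw [← k2] at k1
    linear_combination -k1

/-- `(Φₙ(x), ΨSqₙ(x))` represents the `x`-coordinate of `nP`, for `n : ℤ`. -/
theorem exists_smul_xRep_zsmul [W.IsElliptic] {x y : F} (h : W.toAffine.Nonsingular x y) (n : ℤ) :
    ∃ u : F, u ≠ 0 ∧ numDen W n x = u • (n • Affine.Point.some x y h).xRep := by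
  obtain ⟨k, rfl | rfl⟩ := n.eq_nat_or_neg
  · rw [natCast_zsmul]; exact exists_smul_xRep_nsmul h k
  · obtain ⟨u, hu, hk⟩ := exists_smul_xRep_nsmul h k
    refine ⟨u, hu, ?_⟩
    rw [neg_zsmul, Affine.Point.xRep_neg, natCast_zsmul, ← hk]
    simp only [numDen, Φ_neg, ΨSq_neg]

/-- `nP = 0 ↔ ΨSqₙ(x(P)) = 0`. -/
theorem zsmul_eq_zero_iff [W.IsElliptic] {x y : F} (h : W.toAffine.Nonsingular x y) (n : ℤ) :
    n • Affine.Point.some x y h = 0 ↔ (W.ΨSq n).eval x = 0 := by
  obtain ⟨u, hu, hk⟩ := exists_smul_xRep_zsmul h n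
  have k1 : (W.ΨSq n).eval x = u * (n • Affine.Point.some x y h).xRep 1 := congrFun hk 1
  rcases eq_or_ne (n • Affine.Point.some x y h) 0 with h0 | h0
  · rw [h0, Affine.Point.xRep_zero] at k1
    simp [h0, k1]
  · rw [xRep_of_ne_zero h0] at k1
    simp [h0, k1, hu]

/-- `nP = 0 ↔ ΨSqₙ(x(P)) = 0`, for `n : ℕ`. -/
theorem nsmul_eq_zero_iff [W.IsElliptic] {x y : F} (h : W.toAffine.Nonsingular x y) (n : ℕ) :
    n • Affine.Point.some x y h = 0 ↔ (W.ΨSq n).eval x = 0 := by
  rw [← natCast_zsmul]; exact zsmul_eq_zero_iff h n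

/-- `Φₙ(x) = x(nP) ΨSqₙ(x)` when `nP ≠ 0`. -/
theorem phi_eq_xc_mul [W.IsElliptic] {x y : F} (h : W.toAffine.Nonsingular x y) (n : ℤ)
    (hn : n • Affine.Point.some x y h ≠ 0) :
    (W.Φ n).eval x = xc (n • Affine.Point.some x y h) * (W.ΨSq n).eval x := by
  obtain ⟨u, -, hk⟩ := exists_smul_xRep_zsmul h n
  rw [xRep_of_ne_zero hn] at hk
  have k0 : (W.Φ n).eval x = u * xc (n • Affine.Point.some x y h) := by simpa [numDen] using congrFun hk 0
  have k1 : (W.ΨSq n).eval x = u := by simpa [numDen] using congrFun hk 1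
  rw [k0, k1, mul_comm]

/-- `x(nP) = Φₙ(x) / ΨSqₙ(x)`. -/
theorem xc_zsmul [W.IsElliptic] {x y : F} (h : W.toAffine.Nonsingular x y) (n : ℤ)
    (hn : n • Affine.Point.some x y h ≠ 0) :
    xc (n • Affine.Point.some x y h) = (W.Φ n).eval x / (W.ΨSq n).eval x := by
  rw [eq_div_iff fun h0 ↦ hn ((zsmul_eq_zero_iff h n).mpr h0), phi_eq_xc_mul h n hn]

/-- The coordinates of `nP`, as an existence statement. -/
theorem zsmul_eq_some [W.IsElliptic] {x y : F} (h : W.toAffine.Nonsingular x y) (n : ℤ)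
    (hn : (W.ΨSq n).eval x ≠ 0) :
    ∃ (Y : F) (h' : W.toAffine.Nonsingular ((W.Φ n).eval x / (W.ΨSq n).eval x) Y),
      n • Affine.Point.some x y h = .some _ Y h' := by
  have h0 : n • Affine.Point.some x y h ≠ 0 := fun h0 ↦ hn ((zsmul_eq_zero_iff h n).mp h0)
  have hx := xc_zsmul h n h0
  obtain ⟨X, Y, h', he⟩ := exists_some_of_ne_zero h0
  rw [he, xc_some] at hx
  subst hx
  exact ⟨Y, h', he⟩

end FA.EC
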