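/-
The number of `n`-torsion points of an elliptic curve over an algebraically closed field.

* `FA.EC.natCard_nsmul_eq_zero`: `#E[n] = n²` when `n` is invertible in the field.
* `FA.EC.numDen_ne_zero`: `Φₙ` and `ΨSqₙ` have no common zero.
* `FA.EC.finite_nsmul_eq_zero`: the `n`-torsion of `E(F)` is finite over any field.
-/
import Fermat.Agent.EC.MulFormula
import Mathlib.FieldTheory.IsAlgClosed.Basic
import Mathlib.Algebra.Polynomial.FieldDivision
import Mathlib.Algebra.Module.Torsion.Basic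
import Mathlib.Tactic.ComputeDegree

set_option autoImplicit false
set_option linter.unusedSectionVars false

open WeierstrassCurve Polynomial

namespace FA.EC

universe u

variable {F : Type u} [Field F] [DecidableEq F] (W : WeierstrassCurve F) [W.IsElliptic]

/-- Every `x` is the `x`-coordinate of a point over an algebraically closed field. -/
lemma exists_nonsingular [IsAlgClosed F] (x : F) : ∃ y, W.toAffine.Nonsingular x y := by
  set g : Polynomial F := X ^ 2 + C (W.a₁ * x + W.a₃) * X -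
    C (x ^ 3 + W.a₂ * x ^ 2 + W.a₄ * x + W.a₆)
  have hg : g.degree = 2 := by simp only [g]; compute_degree!
  obtain ⟨y, hy⟩ := IsAlgClosed.exists_root g (by rw [hg]; norm_num)
  refine ⟨y, Affine.equation_iff_nonsingular.mp ?_⟩
  rw [Affine.equation_iff]
  simp only [IsRoot.def, g, eval_sub, eval_add, eval_mul, eval_pow, eval_C, eval_X] at hy
  linear_combination hy

/-- `Φₙ` and `ΨSqₙ` have no common zero, over an algebraically closed field. -/
lemma numDen_ne_zero_of_isAlgClosed [IsAlgClosed F] (n : ℤ) (x : F) : numDen W n x ≠ 0 := by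
  obtain ⟨y, h⟩ := exists_nonsingular W x
  obtain ⟨u, hu, hk⟩ := exists_smul_xRep_zsmul h n
  rw [hk]
  exact smul_ne_zero hu (Affine.Point.xRep_ne_zero _)

/-- `Φₙ` and `ΨSqₙ` have no common zero. -/
lemma numDen_ne_zero (n : ℤ) (x : F) : numDen W n x ≠ 0 := by
  classical
  intro h
  refine numDen_ne_zero_of_isAlgClosed (W.map (algebraMap F (AlgebraicClosure F))) n
    (algebraMap F (AlgebraicClosure F) x) ?_
  rw [numDen_map, h]
  funext i
  simp

lemma Ψ₂Sq_ne_zero_of_isElliptic : W.Ψ₂Sq ≠ 0 := by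
  intro h
  have h3 : (4 : F) = 0 := by rw [← W.coeff_Ψ₂Sq, h, coeff_zero]
  have h2 : W.b₂ = 0 := by
    have := congrArg (fun p : Polynomial F => p.coeff 2) h
    simpa [Ψ₂Sq, coeff_X, coeff_C, coeff_X_pow] using this
  have h1 : 2 * W.b₄ = 0 := by
    have := congrArg (fun p : Polynomial F => p.coeff 1) h
    simpa [Ψ₂Sq, coeff_X, coeff_C, coeff_X_pow] using this
  have h0 : W.b₆ = 0 := by
    have := congrArg (fun p : Polynomial F => p.coeff 0) h
    simpa [Ψ₂Sq, coeff_X, coeff_C, coeff_X_pow] using this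
  refine (W.isUnit_Δ).ne_zero ?_
  rw [WeierstrassCurve.Δ, h2, h0]
  linear_combination (-2 * W.b₄ ^ 3) * h3

/-- The Wronskian of `Φₙ` and `ΨSqₙ` is nonzero. -/
lemma wronskian_ne_zero {n : ℕ} (hn : (n : F) ≠ 0) :
    derivative (W.Φ n) * W.ΨSq n - W.Φ n * derivative (W.ΨSq n) ≠ 0 := by
  have hn0 : n ≠ 0 := by rintro rfl; simp at hn
  rcases eq_or_ne n 1 with rfl | hn1
  · simp
  obtain ⟨k, hk⟩ : ∃ k, n ^ 2 = k + 2 := ⟨n ^ 2 - 2, by
    have : 2 ^ 2 ≤ n ^ 2 := Nat.pow_le_pow_left (by omega) 2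
    omega⟩
  have hΦd : (W.Φ n).natDegree ≤ k + 2 := by
    simpa [hk] using W.natDegree_Φ_le (n : ℤ)
  have hΨd : (W.ΨSq n).natDegree ≤ k + 1 := by
    simpa [hk] using W.natDegree_ΨSq_le (n : ℤ)
  have hΦc : (W.Φ n).coeff (k + 2) = 1 := by
    have := W.coeff_Φ (n : ℤ)
    rwa [Int.natAbs_natCast, hk] at this
  have hΨc : (W.ΨSq n).coeff (k + 1) = (n : F) ^ 2 := by
    have := W.coeff_ΨSq (n : ℤ)
    rw [Int.natAbs_natCast, hk, show k + 2 - 1 = k + 1 by omega] at this
    simpa using this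
  have hΦ'd : (derivative (W.Φ n)).natDegree ≤ k + 1 :=
    (natDegree_derivative_le _).trans (by omega)
  have hΨ'd : (derivative (W.ΨSq n)).natDegree ≤ k :=
    (natDegree_derivative_le _).trans (by omega)
  have hkF : (k : F) + 2 = (n : F) ^ 2 := by
    have := congrArg (fun a : ℕ => (a : F)) hk
    push_cast at this
    exact this.symm
  intro h
  have h2 := congrArg (fun p : Polynomial F => p.coeff (2 * k + 2)) h
  simp only [coeff_sub, coeff_zero] at h2
  rw [show 2 * k + 2 = k + 1 + (k + 1) by ring,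
    coeff_mul_add_eq_of_natDegree_le hΦ'd hΨd, show k + 1 + (k + 1) = k + 2 + k by ring,
    coeff_mul_add_eq_of_natDegree_le hΦd hΨ'd, coeff_derivative, coeff_derivative,
    show k + 1 + 1 = k + 2 by ring, hΦc, hΨc] at h2
  push_cast at h2
  exact pow_ne_zero 2 hn (by linear_combination h2)

variable [IsAlgClosed F]

/-- `#E[n] = n²` for `n` invertible in an algebraically closed field. -/
theorem natCard_nsmul_eq_zero {n : ℕ} (hn : (n : F) ≠ 0) :
    Nat.card {P : W.toAffine.Point // n • P = 0} = n ^ 2 := by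
  classical
  have hn0 : n ≠ 0 := by rintro rfl; simp at hn
  set Φ := W.Φ n
  set Ψ := W.ΨSq n
  set V := derivative Φ * Ψ - Φ * derivative Ψ
  obtain ⟨X₀, hX₀⟩ := Infinite.exists_notMem_finset
    ((V.roots.toFinset.image fun r => Φ.eval r / Ψ.eval r) ∪ W.Ψ₂Sq.roots.toFinset)
  simp only [Finset.mem_union, Finset.mem_image, Multiset.mem_toFinset, not_or, not_exists,
    not_and] at hX₀
  set G : Polynomial F := Φ - C X₀ * Ψ
  have hGd : G.natDegree = n ^ 2 := by
    refine natDegree_eq_of_le_of_coeff_ne_zero ?_ ?_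
    · refine (natDegree_sub_le _ _).trans (max_le ?_ ((natDegree_C_mul_le _ _).trans ?_))
      · simpa [Φ] using W.natDegree_Φ_le (n : ℤ)
      · exact le_trans (by simpa [Ψ] using W.natDegree_ΨSq_le (n : ℤ)) (Nat.sub_le _ _)
    · have h1 : Φ.coeff (n ^ 2) = 1 := by simpa [Φ] using W.coeff_Φ (n : ℤ)
      have h2 : Ψ.coeff (n ^ 2) = 0 := by
        refine coeff_eq_zero_of_natDegree_lt (lt_of_le_of_lt (b := n ^ 2 - 1) ?_ ?_)
        · simpa [Ψ] using W.natDegree_ΨSq_le (n : ℤ)
        · have : 0 < n ^ 2 := by positivity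
          omega
      simp [G, h1, h2]
  have hG0 : G ≠ 0 := by
    intro h
    rw [h, natDegree_zero] at hGd
    exact pow_ne_zero 2 hn0 hGd.symm
  have hroot : ∀ r, G.IsRoot r → Ψ.eval r ≠ 0 ∧ Φ.eval r = X₀ * Ψ.eval r := by
    intro r hr
    simp only [IsRoot.def, G, eval_sub, eval_mul, eval_C, sub_eq_zero] at hr
    refine ⟨fun h0 => numDen_ne_zero W n r ?_, hr⟩
    rw [h0, mul_zero] at hr
    funext i
    fin_cases i
    · exact hr
    · exact h0
  have hsimple : ∀ r, G.IsRoot r → ¬ (derivative G).IsRoot r := by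
    intro r hr hr'
    obtain ⟨hΨ, hΦ⟩ := hroot r hr
    simp only [IsRoot.def, G, derivative_sub, derivative_mul, derivative_C, zero_mul, zero_add,
      eval_sub, eval_mul, eval_C, sub_eq_zero] at hr'
    have hV : V.eval r = 0 := by
      simp only [V, eval_sub, eval_mul]
      rw [hr', hΦ]
      ring
    exact hX₀.1 r (mem_roots'.mpr ⟨wronskian_ne_zero W hn, hV⟩) (by rw [hΦ, mul_div_cancel_right₀ _ hΨ])
  have hnodup : G.roots.Nodup := by
    refine Multiset.nodup_iff_count_le_one.mpr fun r => ?_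
    rw [count_roots]
    by_contra hc
    have h1 : 1 < rootMultiplicity r G := by omega
    obtain ⟨hr, hr'⟩ := (one_lt_rootMultiplicity_iff_isRoot hG0).mp h1
    exact hsimple r hr hr'
  have hcard : G.roots.toFinset.card = n ^ 2 := by
    rw [Multiset.toFinset_card_of_nodup hnodup, IsAlgClosed.card_roots_eq_natDegree, hGd]
  -- the base point `Q` with `x(Q) = X₀`
  obtain ⟨Y₀, hQ⟩ := exists_nonsingular W X₀
  set Q : W.toAffine.Point := .some X₀ Y₀ hQ
  have hQne : Q ≠ -Q := by
    intro h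
    have : Q + Q = 0 := by
      nth_rw 1 [h]
      rw [neg_add_cancel]
    have h0 := pc_eq_zero_of_add_self this
    have h2 := pc_sq (Affine.Point.some_ne_zero hQ)
    rw [h0, zero_pow two_ne_zero] at h2
    exact hX₀.2 (mem_roots'.mpr ⟨Ψ₂Sq_ne_zero_of_isElliptic W, h2.symm⟩)
  have hne : ∀ P : W.toAffine.Point, n • P = Q → P ≠ 0 := by
    rintro P hP rfl
    rw [nsmul_zero] at hP
    exact Affine.Point.some_ne_zero hQ hP.symm
  let f : {P : W.toAffine.Point // n • P = Q} → {r // r ∈ G.roots.toFinset} := fun P =>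
    ⟨xc P.1, by
      obtain ⟨P, hP⟩ := P
      obtain ⟨a, b, hab, rfl⟩ := exists_some_of_ne_zero (hne P hP)
      rw [Multiset.mem_toFinset, mem_roots hG0]
      have hP' : (n : ℤ) • Affine.Point.some a b hab = Q := by rwa [natCast_zsmul]
      have := phi_eq_xc_mul hab n (by rw [hP']; exact Affine.Point.some_ne_zero hQ)
      rw [hP'] at this
      simp only [IsRoot.def, G, xc_some, eval_sub, eval_mul, eval_C, sub_eq_zero]
      exact this⟩
  have hf : Function.Bijective f := by
    constructor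
    · rintro ⟨P, hP⟩ ⟨P', hP'⟩ h
      have h' : xc P = xc P' := congrArg Subtype.val h
      rcases eq_or_eq_neg_of_xc_eq (hne P hP) (hne P' hP') h' with rfl | rfl
      · rfl
      · rw [smul_neg, hP'] at hP
        exact absurd hP.symm hQne
    · rintro ⟨r, hr⟩
      rw [Multiset.mem_toFinset, mem_roots hG0] at hr
      obtain ⟨hΨ, hΦ⟩ := hroot r hr
      obtain ⟨b, hb⟩ := exists_nonsingular W r
      have hnP : n • Affine.Point.some r b hb ≠ 0 := fun h =>
        hΨ ((nsmul_eq_zero_iff hb n).mp h)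
      have hx : xc (n • Affine.Point.some r b hb) = xc Q := by
        have := xc_zsmul hb n (by rwa [natCast_zsmul])
        rw [natCast_zsmul] at this
        rw [this, hΦ, mul_div_cancel_right₀ _ hΨ, xc_some]
      rcases eq_or_eq_neg_of_xc_eq hnP (Affine.Point.some_ne_zero hQ) hx with h | h
      · exact ⟨⟨_, h⟩, Subtype.ext (xc_some hb)⟩
      · exact ⟨⟨-Affine.Point.some r b hb, by rw [smul_neg, h, neg_neg]⟩,
          Subtype.ext ((xc_neg _).trans (xc_some hb))⟩
  have hfib : Nat.card {P : W.toAffine.Point // n • P = Q} = n ^ 2 := by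
    rw [Nat.card_congr (Equiv.ofBijective f hf), Nat.card_eq_fintype_card, Fintype.card_coe, hcard]
  obtain ⟨⟨P₀, hP₀⟩⟩ := (Nat.card_pos_iff.mp (hfib ▸ (by positivity : 0 < n ^ 2))).1
  rw [← hfib]
  exact Nat.card_congr
    { toFun := fun P => ⟨P.1 + P₀, by rw [nsmul_add, P.2, hP₀, zero_add]⟩
      invFun := fun P => ⟨P.1 - P₀, by rw [nsmul_sub, P.2, hP₀, sub_self]⟩
      left_inv := fun P => Subtype.ext (add_sub_cancel_right _ _)
      right_inv := fun P => Subtype.ext (sub_add_cancel _ _) }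

/-- The `n`-torsion as a submodule has `n²` elements. -/
theorem natCard_torsionBy {n : ℕ} (hn : (n : F) ≠ 0) :
    Nat.card (Submodule.torsionBy ℤ W.toAffine.Point n) = n ^ 2 := by
  rw [← natCard_nsmul_eq_zero W hn]
  exact Nat.card_congr (Equiv.subtypeEquivRight fun P => by
    rw [Submodule.mem_torsionBy_iff, natCast_zsmul])

/-- The `n`-torsion is finite over an algebraically closed field. -/
theorem finite_torsionBy {n : ℕ} (hn : (n : F) ≠ 0) :
    Finite (Submodule.torsionBy ℤ W.toAffine.Point n) := by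
  refine Nat.finite_of_card_ne_zero ?_
  rw [natCard_torsionBy W hn]
  exact pow_ne_zero 2 (by rintro rfl; simp at hn)

end FA.EC
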