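/-
The mod `n` Galois representation of an elliptic curve over `ℚ`.

* `FA.EC.natCard_torsion`: `#E[n](ℚ̄) = n²`.
* `FA.EC.finrank_torsion`: `E[p](ℚ̄)` is two-dimensional over `ZMod p`.
* `FA.EC.galoisFactorsThroughFiniteLevel`: the representation factors through a finite level.
-/
import Fermat.Agent.EC.TorsionCard
import Fermat.Prelude.Def_GaloisRep_Residual
import Mathlib.FieldTheory.IntermediateField.Adjoin.Basic

set_option autoImplicit false
set_option linter.unusedSectionVars false

open WeierstrassCurve WeierstrassCurve.Affine.Point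
open scoped WeierstrassCurve.Affine

namespace FA.EC

universe u v

section general

/-- Base change preserves being elliptic. -/
instance baseChange_isElliptic {R : Type u} [CommRing R] (W : WeierstrassCurve R) [W.IsElliptic]
    (A : Type v) [CommRing A] [Algebra R A] : (W⁄A).IsElliptic :=
  inferInstanceAs (W.map (algebraMap R A)).IsElliptic

variable {K : Type v} [Field K] [DecidableEq K]

/-- `x` and `y` coordinates as a pair, with junk value at infinity. -/
def xyPair {W : WeierstrassCurve K} : W.toAffine.Point → K × K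
  | .zero => (0, 0)
  | .some x y _ => (x, y)

variable {R : Type u} [CommRing R] [Algebra R K] (W : Affine R) [IsAlgClosed K]
  [(W⁄K).IsElliptic]

/-- `#E[n](K) = n²` for a curve defined over a subring. -/
theorem natCard_torsion_baseChange {n : ℕ} (hn : (n : K) ≠ 0) :
    Nat.card (Submodule.torsionBy ℤ (W⁄K).Point n) = n ^ 2 :=
  natCard_torsionBy (W⁄K) hn

/-- `E[p](K)` is two-dimensional over `ZMod p`. -/
theorem finrank_torsion_baseChange {p : ℕ} [Fact p.Prime] (hp : (p : K) ≠ 0) :
    Module.finrank (ZMod p) (Submodule.torsionBy ℤ (W⁄K).Point p) = 2 := by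
  have : Finite (Submodule.torsionBy ℤ (W⁄K).Point p) := finite_torsionBy (W⁄K) hp
  have h := Module.natCard_eq_pow_finrank (K := ZMod p)
    (V := Submodule.torsionBy ℤ (W⁄K).Point p)
  rw [natCard_torsion_baseChange W hp, Nat.card_zmod] at h
  exact (Nat.pow_right_injective (Fact.out (p := p.Prime)).two_le h).symm

end general

variable (W : WeierstrassCurve ℚ) [W.IsElliptic]

/-- `#E[n](ℚ̄) = n²`. -/
theorem natCard_torsion {n : ℕ} (hn : n ≠ 0) :
    Nat.card (Submodule.torsionBy ℤ (W⁄(AlgebraicClosure ℚ)).Point n) = n ^ 2 :=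
  natCard_torsion_baseChange W (Nat.cast_ne_zero.mpr hn)

/-- The `n`-torsion over `ℚ̄` is finite. -/
theorem finite_torsion {n : ℕ} (hn : n ≠ 0) :
    Finite (Submodule.torsionBy ℤ (W⁄(AlgebraicClosure ℚ)).Point n) :=
  finite_torsionBy (W⁄(AlgebraicClosure ℚ)) (Nat.cast_ne_zero.mpr hn)

/-- `E[p](ℚ̄)` is two-dimensional over `ZMod p`. -/
theorem finrank_torsion (p : ℕ) [hp : Fact p.Prime] :
    Module.finrank (ZMod p) (Submodule.torsionBy ℤ (W⁄(AlgebraicClosure ℚ)).Point p) = 2 :=
  finrank_torsion_baseChange W (Nat.cast_ne_zero.mpr hp.out.ne_zero)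

/-- The mod `n` representation factors through a finite extension of `ℚ`. -/
theorem galoisFactorsThroughFiniteLevel {n : ℕ} (hn : n ≠ 0) :
    GaloisFactorsThroughFiniteLevel
      (galoisRepModuleEnd (K := AlgebraicClosure ℚ) ℚ W n) := by
  have := finite_torsion W hn
  let S : Set (AlgebraicClosure ℚ) :=
    Set.range (fun P : Submodule.torsionBy ℤ (W⁄(AlgebraicClosure ℚ)).Point n => (xyPair P.1).1) ∪
      Set.range (fun P : Submodule.torsionBy ℤ (W⁄(AlgebraicClosure ℚ)).Point n => (xyPair P.1).2)
  refine ⟨IntermediateField.adjoin ℚ S, ?_, fun σ hσ => ?_⟩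
  · have : Finite S := ((Set.finite_range _).union (Set.finite_range _)).to_subtype
    exact IntermediateField.finiteDimensional_adjoin fun x _ =>
      ((AlgebraicClosure.isAlgebraic ℚ).isAlgebraic x).isIntegral
  · refine LinearMap.ext fun P => Subtype.ext ?_
    rw [galoisRepModuleEnd_apply]
    change σ • (P : (W⁄(AlgebraicClosure ℚ)).Point) = P
    obtain ⟨P, hP⟩ := P
    rcases P with _ | ⟨x, y, h⟩
    · rfl
    · have hx : σ x = x := hσ x (IntermediateField.subset_adjoin ℚ S
        (Or.inl ⟨⟨_, hP⟩, rfl⟩))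
      have hy : σ y = y := hσ y (IntermediateField.subset_adjoin ℚ S
        (Or.inr ⟨⟨_, hP⟩, rfl⟩))
      rw [algEquiv_smul_def, map_some]
      simp only [some.injEq]
      exact ⟨hx, hy⟩

end FA.EC
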