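/-
`j`-invariants of curves with a kernel of a `3`- or `5`-isogeny, in terms of the coordinates of
its points.
-/
import Mathlib.AlgebraicGeometry.EllipticCurve.DivisionPolynomial.Basic
import Mathlib.Tactic.FieldSimp
import Mathlib.Tactic.LinearCombination

set_option autoImplicit false
set_option linter.unusedSectionVars false

open WeierstrassCurve Polynomial

namespace FA.EC

universe u

variable {F : Type u} [Field F] (W : WeierstrassCurve F) (x : F)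

/-- The invariant `b₂` of the curve translated so that `x` becomes `0`. -/
def shiftB₂ : F := W.b₂ + 12 * x

/-- The invariant `b₄` of the curve translated so that `x` becomes `0`. -/
def shiftB₄ : F := W.b₄ + x * W.b₂ + 6 * x ^ 2

/-- `c₄` in the translated invariants. -/
lemma c₄_eq_shift : W.c₄ = shiftB₂ W x ^ 2 - 24 * shiftB₄ W x := by
  simp only [shiftB₂, shiftB₄, c₄]
  ring

/-- The relation between the translated invariants. -/
lemma shift_relation :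
    4 * W.Ψ₃.eval x = shiftB₂ W x * W.Ψ₂Sq.eval x - shiftB₄ W x ^ 2 := by
  simp only [shiftB₂, shiftB₄, Ψ₃, Ψ₂Sq, eval_add, eval_mul, eval_C, eval_pow, eval_X, eval_ofNat]
  linear_combination W.b_relation

/-- `Δ` in the translated invariants. -/
lemma Δ_eq_shift : W.Δ = -shiftB₂ W x ^ 2 * W.Ψ₃.eval x - 8 * shiftB₄ W x ^ 3 -
    27 * W.Ψ₂Sq.eval x ^ 2 + 9 * shiftB₂ W x * shiftB₄ W x * W.Ψ₂Sq.eval x := by
  simp only [shiftB₂, shiftB₄, Ψ₃, Ψ₂Sq, eval_add, eval_mul, eval_C, eval_pow, eval_X, eval_ofNat,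
    WeierstrassCurve.Δ, b₂, b₄, b₆, b₈]
  ring

/-- `preΨ₄` in the translated invariants. -/
lemma preΨ₄_eq_shift :
    W.preΨ₄.eval x = shiftB₄ W x * W.Ψ₃.eval x - W.Ψ₂Sq.eval x ^ 2 := by
  simp only [shiftB₄, Ψ₃, Ψ₂Sq, preΨ₄, eval_add, eval_mul, eval_C, eval_pow, eval_X, eval_ofNat]
  linear_combination (x ^ 2) * W.b_relation

/-- A rational kernel of a `3`-isogeny: `j = (s + 27)(s + 3)³ / s`. -/
theorem exists_param_three [W.IsElliptic] (h : W.Ψ₃.eval x = 0) :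
    ∃ s : F, s ≠ 0 ∧ W.c₄ ^ 3 * s = (s + 27) * (s + 3) ^ 3 * W.Δ := by
  have hΔ : W.Δ ≠ 0 := W.isUnit_Δ.ne_zero
  have hr := shift_relation W x
  have hc := c₄_eq_shift W x
  have hD := Δ_eq_shift W x
  rw [h] at hr hD
  generalize shiftB₂ W x = A at hr hc hD
  generalize shiftB₄ W x = B at hr hc hD
  generalize W.Ψ₂Sq.eval x = C at hr hD
  have hC : C ≠ 0 := by
    rintro rfl
    obtain rfl : B = 0 := pow_eq_zero_iff (two_ne_zero) |>.mp (by linear_combination hr)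
    exact hΔ (by linear_combination hD)
  obtain rfl : A = B ^ 2 / C := by
    rw [eq_div_iff hC]; linear_combination -hr
  have hD' : W.Δ = B ^ 3 - 27 * C ^ 2 := by
    rw [hD]; field_simp; ring
  refine ⟨B ^ 3 / C ^ 2 - 27, ?_, ?_⟩
  · intro hs
    apply hΔ
    rw [hD']
    field_simp at hs
    linear_combination hs
  · rw [hc, hD']
    field_simp
    ring

/-- The second `x`-coordinate of a kernel of a `5`-isogeny containing a point with `x`-coordinate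
`x`. -/
noncomputable def secondX : F := x - W.Ψ₃.eval x / W.Ψ₂Sq.eval x

/-- The parameter of a kernel `{±P, ±2P}` of a `5`-isogeny, symmetric in `x(P)` and `x(2P)`. -/
noncomputable def fiveParam (x₁ x₂ : F) : F :=
  (x₂ - x₁) ^ 3 / W.Ψ₂Sq.eval x₁ + (x₁ - x₂) ^ 3 / W.Ψ₂Sq.eval x₂ - 11

lemma fiveParam_comm (x₁ x₂ : F) : fiveParam W x₁ x₂ = fiveParam W x₂ x₁ := by
  simp only [fiveParam]; ring

/-- A kernel of a `5`-isogeny: `j = (t² + 10t + 5)³ / t`. -/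
theorem param_five [W.IsElliptic] (h2 : W.Ψ₂Sq.eval x ≠ 0) (h3 : W.Ψ₃.eval x ≠ 0)
    (h5 : W.preΨ₄.eval x * W.Ψ₂Sq.eval x ^ 2 = W.Ψ₃.eval x ^ 3) :
    let t := fiveParam W x (secondX W x)
    t ≠ 0 ∧ W.c₄ ^ 3 * t = (t ^ 2 + 10 * t + 5) ^ 3 * W.Δ := by
  intro t
  have hΔ : W.Δ ≠ 0 := W.isUnit_Δ.ne_zero
  have hr := shift_relation W x
  have hc := c₄_eq_shift W x
  have hD := Δ_eq_shift W x
  rw [preΨ₄_eq_shift] at h5
  have hx2 : W.Ψ₂Sq.eval (secondX W x) = W.Ψ₂Sq.eval x -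
      2 * shiftB₄ W x * (W.Ψ₃.eval x / W.Ψ₂Sq.eval x) +
      shiftB₂ W x * (W.Ψ₃.eval x / W.Ψ₂Sq.eval x) ^ 2 -
      4 * (W.Ψ₃.eval x / W.Ψ₂Sq.eval x) ^ 3 := by
    simp only [secondX]
    generalize W.Ψ₃.eval x / W.Ψ₂Sq.eval x = d
    simp only [shiftB₂, shiftB₄, Ψ₂Sq, eval_add, eval_mul, eval_C, eval_pow, eval_X]
    ring
  have ht : t = (-(W.Ψ₃.eval x / W.Ψ₂Sq.eval x)) ^ 3 / W.Ψ₂Sq.eval x +
      (W.Ψ₃.eval x / W.Ψ₂Sq.eval x) ^ 3 / W.Ψ₂Sq.eval (secondX W x) - 11 := by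
    simp only [t, fiveParam, secondX]; ring
  rw [hx2] at ht
  clear hx2
  clear_value t
  generalize shiftB₂ W x = A at hr hc hD ht h5
  generalize shiftB₄ W x = B at hr hc hD ht h5
  generalize W.Ψ₂Sq.eval x = C at hr hD ht h5 h2
  generalize W.Ψ₃.eval x = E at hr hD ht h5 h3
  obtain rfl : B = (E ^ 3 + C ^ 4) / (C ^ 2 * E) := by
    rw [eq_div_iff (mul_ne_zero (pow_ne_zero 2 h2) h3)]; linear_combination h5
  obtain rfl : A = (4 * E + ((E ^ 3 + C ^ 4) / (C ^ 2 * E)) ^ 2) / C := by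
    rw [eq_div_iff h2]; linear_combination -hr
  have hden : C - 2 * ((E ^ 3 + C ^ 4) / (C ^ 2 * E)) * (E / C) +
      (4 * E + ((E ^ 3 + C ^ 4) / (C ^ 2 * E)) ^ 2) / C * (E / C) ^ 2 - 4 * (E / C) ^ 3 =
      E ^ 6 / (C ^ 7) := by
    field_simp
    ring
  rw [hden] at ht
  have ht' : t = (C ^ 8 - 11 * C ^ 4 * E ^ 3 - E ^ 6) / (C ^ 4 * E ^ 3) := by
    rw [ht]; field_simp; ring
  refine ⟨fun h0 => hΔ ?_, ?_⟩
  · rw [ht', div_eq_zero_iff] at h0
    have h0' := h0.resolve_right (mul_ne_zero (pow_ne_zero 4 h2) (pow_ne_zero 3 h3))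
    rw [hD]
    field_simp
    linear_combination E ^ 6 * h0'
  · rw [hc, hD, ht']
    field_simp
    ring

end FA.EC
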