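/-
The Diophantine equation behind the rational points of the modular curve `X₀(15)`:
the rational points of `Y² = (A² - 11A - 1)(A² + A - 1)`, by infinite descent.
-/
import Mathlib.NumberTheory.PythagoreanTriples
import Mathlib.RingTheory.Int.Basic
import Mathlib.Tactic.LinearCombination
import Mathlib.Tactic.NormNum.Prime
import Mathlib.Tactic.IntervalCases
import Mathlib.Data.ZMod.Basic

set_option autoImplicit false

namespace FA.EC.X15

lemma int_sq_of_mul_sq {p q r : ℤ} (hco : IsCoprime p q) (hq : 0 < q) (h : p * q = r ^ 2) :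
    (∃ z, p = z ^ 2) ∧ ∃ w, q = w ^ 2 := by
  have hp0 : 0 ≤ p := nonneg_of_mul_nonneg_left (h ▸ sq_nonneg r) hq
  refine ⟨?_, ?_⟩
  · obtain ⟨z, hz | hz⟩ := Int.sq_of_isCoprime hco h
    · exact ⟨z, hz⟩
    · exact ⟨0, by have := sq_nonneg z; linarith⟩
  · obtain ⟨w, hw | hw⟩ := Int.sq_of_isCoprime hco.symm (by rwa [mul_comm] at h)
    · exact ⟨w, hw⟩
    · exact absurd hw (by have := sq_nonneg w; intro; linarith)

lemma isCoprime_forms {m n : ℤ} (h : IsCoprime m n) :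
    IsCoprime (m ^ 2 + m * n - n ^ 2) (m ^ 2 - 11 * m * n - n ^ 2) ∧
      Odd (m ^ 2 + m * n - n ^ 2) ∧ ¬ (3 : ℤ) ∣ (m ^ 2 + m * n - n ^ 2) := by
  have key : ∀ k : ℕ, k.Prime → (k : ℤ) ∣ m → (k : ℤ) ∣ n → False := fun k hk h1 h2 => by
    have := h.isUnit_of_dvd' h1 h2
    rw [Int.isUnit_iff_natAbs_eq, Int.natAbs_natCast] at this
    exact hk.one_lt.ne' this
  have hmod : ∀ k : ℕ, ∀ [NeZero k], (∀ x y : ZMod k, x ^ 2 + x * y - y ^ 2 = 0 → x = 0 ∧ y = 0) →
      k.Prime → ¬ (k : ℤ) ∣ (m ^ 2 + m * n - n ^ 2) := fun k _ hk hp hdvd => by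
    rw [← ZMod.intCast_zmod_eq_zero_iff_dvd] at hdvd
    push_cast at hdvd
    obtain ⟨h1, h2⟩ := hk _ _ hdvd
    exact key k hp ((ZMod.intCast_zmod_eq_zero_iff_dvd m k).mp h1)
      ((ZMod.intCast_zmod_eq_zero_iff_dvd n k).mp h2)
  have h2 : ¬ (2 : ℤ) ∣ (m ^ 2 + m * n - n ^ 2) := hmod 2 (by decide) Nat.prime_two
  have h3 : ¬ (3 : ℤ) ∣ (m ^ 2 + m * n - n ^ 2) := hmod 3 (by decide) Nat.prime_three
  refine ⟨isCoprime_of_prime_dvd ?_ ?_, Int.not_even_iff_odd.mp fun he => h2 he.two_dvd, h3⟩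
  · rintro ⟨h0, -⟩
    exact h2 (h0 ▸ dvd_zero _)
  · intro k hk hkf hkg
    have h12 : k ∣ 3 * (2 * (2 * (m * n))) := by
      have := dvd_sub hkf hkg
      ring_nf at this ⊢
      exact this
    rcases hk.dvd_or_dvd h12 with h' | h'
    · exact h3 (((hk.associated_of_dvd (by norm_num : Prime (3 : ℤ)) h').symm.dvd).trans hkf)
    rcases hk.dvd_or_dvd h' with h' | h'
    · exact h2 (((hk.associated_of_dvd (Int.prime_two) h').symm.dvd).trans hkf)
    rcases hk.dvd_or_dvd h' with h' | h'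
    · exact h2 (((hk.associated_of_dvd (Int.prime_two) h').symm.dvd).trans hkf)
    rcases hk.dvd_or_dvd h' with hm | hn
    · have hn : k ∣ n := hk.dvd_of_dvd_pow (n := 2) <| by
        have := dvd_sub (dvd_mul_of_dvd_left hm (m + n)) hkf
        ring_nf at this ⊢
        exact this
      exact hk.not_isUnit (h.isUnit_of_dvd' hm hn)
    · have hm : k ∣ m := hk.dvd_of_dvd_pow (n := 2) <| by
        have := dvd_sub hkf (dvd_mul_of_dvd_left hn (m - n))
        ring_nf at this ⊢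
        exact this
      exact hk.not_isUnit (h.isUnit_of_dvd' hm hn)

/-- The core of the descent. -/
lemma descent_pos (N : ℕ) : ∀ m n u v : ℤ, (m * n).natAbs = N → IsCoprime m n → m * n ≠ 0 →
    m ^ 2 + m * n - n ^ 2 = u ^ 2 → m ^ 2 - 11 * m * n - n ^ 2 = v ^ 2 → m = -2 * n := by
  induction N using Nat.strong_induction_on with
  | _ N ih =>
  intro m n u v hN hco hmn hf hg
  obtain ⟨hcfg, hfodd, hf3⟩ := isCoprime_forms hco
  -- normalise the sign of `v` so that `3 ∣ u + v`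
  obtain ⟨v, hg, h3⟩ : ∃ v, m ^ 2 - 11 * m * n - n ^ 2 = v ^ 2 ∧ 3 ∣ u + v := by
    have : (3 : ℤ) ∣ (u + v) * (u - v) := ⟨4 * (m * n), by linear_combination hg - hf⟩
    rcases (by norm_num : Prime (3 : ℤ)).dvd_or_dvd this with h | h
    · exact ⟨v, hg, h⟩
    · exact ⟨-v, by rw [neg_sq, hg], by rwa [← sub_eq_add_neg]⟩
  have hu : Odd u := (Int.odd_pow' two_ne_zero).mp (hf ▸ hfodd)
  have hv : Odd v := by
    refine (Int.odd_pow' two_ne_zero).mp (hg ▸ ?_)
    rw [show m ^ 2 - 11 * m * n - n ^ 2 = m ^ 2 + m * n - n ^ 2 + 2 * (-6 * (m * n)) by ring]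
    exact hfodd.add_even (even_two_mul _)
  obtain ⟨u', hu'⟩ := hu
  obtain ⟨v', hv'⟩ := hv
  obtain ⟨L', hL'⟩ : (3 : ℤ) ∣ u' + v' + 1 := by omega
  set K := u' - v' with hK
  have hKL : K * L' = m * n := by
    have : u ^ 2 - v ^ 2 = 12 * (m * n) := by linear_combination hg - hf
    rw [hu', hv'] at this
    refine mul_left_cancel₀ (by norm_num : (12 : ℤ) ≠ 0) ?_
    rw [hK]
    linear_combination this - 4 * (u' - v') * hL'
  have hu2 : u = K + 3 * L' := by omega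
  have hK3 : ¬ (3 : ℤ) ∣ K := by
    intro h
    apply hf3
    rw [hf]
    exact Dvd.dvd.pow (hu2 ▸ dvd_add h (dvd_mul_right 3 L')) two_ne_zero
  -- four numbers
  have hm0 : m ≠ 0 := left_ne_zero_of_mul hmn
  have hn0 : n ≠ 0 := right_ne_zero_of_mul hmn
  obtain ⟨a, c, b, hcb, hma, hKa⟩ : ∃ a c b : ℤ, IsCoprime c b ∧ m = a * c ∧ K = a * b := by
    obtain ⟨g, c, b, -, hcb, hm', hK'⟩ := Int.exists_gcd_one'
      (m := m) (n := K) (Nat.pos_of_ne_zero fun h => hm0 (Int.gcd_eq_zero_iff.mp h).1)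
    exact ⟨g, c, b, Int.isCoprime_iff_gcd_eq_one.mpr hcb, by rw [hm', mul_comm],
      by rw [hK', mul_comm]⟩
  have ha0 : a ≠ 0 := by rintro rfl; simp [hma] at hm0
  have hc0 : c ≠ 0 := by rintro rfl; simp [hma] at hm0
  have hbL : b * L' = c * n := mul_left_cancel₀ ha0 (by
    linear_combination hKL - L' * hKa + n * hma)
  obtain ⟨d, hd⟩ : c ∣ L' := hcb.dvd_of_dvd_mul_left ⟨n, hbL⟩
  have hnd : n = b * d := mul_left_cancel₀ hc0 (by rw [← hbL, hd]; ring)
  have hd0 : d ≠ 0 := by rintro rfl; simp [hnd] at hn0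
  have hb0 : b ≠ 0 := by rintro rfl; simp [hnd] at hn0
  have hb3 : ¬ (3 : ℤ) ∣ b := fun h => hK3 (hKa ▸ dvd_mul_of_dvd_right h a)
  have hquad : a ^ 2 * (c ^ 2 - b ^ 2) - 5 * a * b * c * d - d ^ 2 * (b ^ 2 + 9 * c ^ 2) = 0 := by
    rw [hu2, hKa, hd, hma, hnd] at hf
    linear_combination hf
  have hdisc : ∃ e, (9 * c ^ 2 - 4 * b ^ 2) * (4 * c ^ 2 + b ^ 2) = e ^ 2 := by
    have he : (2 * a * (c ^ 2 - b ^ 2) - 5 * b * c * d) ^ 2 =
        d ^ 2 * ((9 * c ^ 2 - 4 * b ^ 2) * (4 * c ^ 2 + b ^ 2)) := by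
      linear_combination 4 * (c ^ 2 - b ^ 2) * hquad
    obtain ⟨e, hde⟩ := (Int.pow_dvd_pow_iff two_ne_zero).mp (Dvd.intro _ he.symm)
    refine ⟨e, mul_left_cancel₀ (pow_ne_zero 2 hd0) ?_⟩
    rw [← he, hde, mul_pow]
  obtain ⟨e₀, he₀⟩ := hdisc
  -- the square classes of the two factors
  obtain ⟨z, w, hz, hw⟩ : ∃ z w : ℤ,
      9 * c ^ 2 - 4 * b ^ 2 = 5 * z ^ 2 ∧ 4 * c ^ 2 + b ^ 2 = 5 * w ^ 2 := by
    have hP2 : (0 : ℤ) < 4 * c ^ 2 + b ^ 2 := by positivity
    obtain ⟨g, p, q, hg0, hpq, hp, hq⟩ := Int.exists_gcd_one'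
      (m := 9 * c ^ 2 - 4 * b ^ 2) (n := 4 * c ^ 2 + b ^ 2)
      (Nat.pos_of_ne_zero fun h => hP2.ne' (Int.gcd_eq_zero_iff.mp h).2)
    have hg25 : g ∣ 25 := by
      have h1 : (g : ℤ) ∣ 25 * b ^ 2 := ⟨9 * q - 4 * p, by linear_combination 9 * hq - 4 * hp⟩
      have h2 : (g : ℤ) ∣ 25 * c ^ 2 := ⟨p + 4 * q, by linear_combination hp + 4 * hq⟩
      obtain ⟨i, j, hij⟩ := (hcb.pow (m := 2) (n := 2))
      have := dvd_add (dvd_mul_of_dvd_right h2 i) (dvd_mul_of_dvd_right h1 j)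
      rw [show i * (25 * c ^ 2) + j * (25 * b ^ 2) = 25 * (i * c ^ 2 + j * b ^ 2) by ring, hij,
        mul_one] at this
      exact Int.natCast_dvd_natCast.mp this
    have hgZ : (0 : ℤ) < g := by exact_mod_cast hg0
    have hq0 : 0 < q := pos_of_mul_pos_left (hq ▸ hP2) hgZ.le
    obtain ⟨e₁, he₁⟩ : (g : ℤ) ∣ e₀ := (Int.pow_dvd_pow_iff two_ne_zero).mp
      ⟨p * q, by rw [← he₀, hp, hq]; ring⟩
    obtain ⟨⟨z, hz⟩, w, hw⟩ := int_sq_of_mul_sq (Int.isCoprime_iff_gcd_eq_one.mpr hpq) hq0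
      (r := e₁) (mul_left_cancel₀ (pow_ne_zero 2 hgZ.ne')
        (by linear_combination (norm := (rw [hp, hq, he₁]; ring1)) he₀))
    have hg' : g = 1 ∨ g = 5 ∨ g = 25 := by
      have hle : g ≤ 25 := Nat.le_of_dvd (by norm_num) hg25
      interval_cases g <;> omega
    have notsq : ∀ z : ℤ, 9 * c ^ 2 - 4 * b ^ 2 ≠ z ^ 2 := fun z h => hb3 <| by
      have h' := congrArg (fun x : ℤ => (x : ZMod 3)) h
      push_cast at h'
      have : ∀ x y w : ZMod 3, 9 * x ^ 2 - 4 * y ^ 2 = w ^ 2 → y = 0 := by decide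
      exact (ZMod.intCast_zmod_eq_zero_iff_dvd b 3).mp (this _ _ _ h')
    rcases hg' with rfl | rfl | rfl
    · exact absurd (by rw [hp, hz]; simp) (notsq z)
    · exact ⟨z, w, by rw [hp, hz]; push_cast; ring, by rw [hq, hw]; push_cast; ring⟩
    · exact absurd (by rw [hp, hz]; push_cast; ring) (notsq (5 * z))
  -- normalise the sign of `b` modulo 5
  obtain ⟨β, k, hβ, hcβ⟩ : ∃ β k : ℤ, (β = b ∨ β = -b) ∧ β = c + 5 * k := by
    have : (5 : ℤ) ∣ (b - c) * (b + c) := ⟨w ^ 2 - c ^ 2, by linear_combination hw⟩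
    rcases (by norm_num : Prime (5 : ℤ)).dvd_or_dvd this with ⟨k, hk⟩ | ⟨k, hk⟩
    · exact ⟨b, k, Or.inl rfl, by linear_combination hk⟩
    · exact ⟨-b, -k, Or.inr rfl, by linear_combination -hk⟩
  have hβ2 : β ^ 2 = b ^ 2 := by rcases hβ with rfl | rfl <;> ring
  have hcoβ : IsCoprime c β := by rcases hβ with rfl | rfl; exacts [hcb, hcb.neg_right]
  have hβabs : β.natAbs = b.natAbs := by rcases hβ with rfl | rfl <;> simp
  have hβodd : Odd β := by
    rw [Int.odd_iff]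
    by_contra hev
    have hb2 : β % 2 = 0 := by omega
    obtain ⟨β', rfl⟩ : (2 : ℤ) ∣ β := Int.dvd_of_emod_eq_zero hb2
    have hc2 : ¬ (2 : ℤ) ∣ c := fun h => by
      have := hcoβ.isUnit_of_dvd' h (dvd_mul_right 2 β')
      exact absurd (Int.isUnit_iff.mp this) (by norm_num)
    have h' := congrArg (fun x : ℤ => (x : ZMod 8)) hz
    rw [← hβ2] at h'
    obtain ⟨c', rfl⟩ : Odd c := Int.not_even_iff_odd.mp fun h => hc2 h.two_dvd
    push_cast at h'
    have : ∀ x y w : ZMod 8, 9 * (2 * x + 1) ^ 2 - 4 * (2 * y) ^ 2 ≠ 5 * w ^ 2 := by decide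
    exact this _ _ _ h'
  rcases eq_or_ne k 0 with rfl | hk0
  · -- the exceptional solution
    obtain rfl : β = c := by simpa using hcβ
    have hunit : β ^ 2 = 1 := by
      rcases Int.isUnit_iff.mp (isCoprime_self.mp hcoβ) with h | h <;> simp [h]
    have h1 : a * b * β + 2 * d = 0 := by
      have h0 : d * (a * b * β + 2 * d) = 0 := by
        rw [← hβ2, hunit] at hquad
        linarith
      exact (mul_eq_zero.mp h0).resolve_left hd0
    rw [hma, hnd]
    linear_combination (b : ℤ) * h1 - a * β * (hβ2.symm.trans hunit)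
  · exfalso
    have hek : IsCoprime (c + k) (2 * k) := by
      refine IsCoprime.mul_right ?_ ?_
      · obtain ⟨j, hj⟩ := hβodd
        exact ⟨1, -(j - 2 * k), by linear_combination hj - hcβ⟩
      · rw [hcβ] at hcoβ
        have h5 : IsCoprime c (k * 5) := by
          have := hcoβ.add_mul_left_right (-1)
          rwa [show c + 5 * k + c * -1 = k * 5 by ring] at this
        have := h5.of_mul_right_left.add_mul_left_left 1
        rwa [mul_one] at this
    have hpy : PythagoreanTriple (c + k) (2 * k) w := by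
      unfold PythagoreanTriple
      refine mul_left_cancel₀ (by norm_num : (5 : ℤ) ≠ 0) ?_
      rw [← hβ2, hcβ] at hw
      linear_combination hw
    obtain ⟨r, s, hrs, -, hgrs, -⟩ :=
      PythagoreanTriple.coprime_classification.mp ⟨hpy, Int.isCoprime_iff_gcd_eq_one.mp hek⟩
    have heodd : Odd (c + k) := by
      obtain ⟨j, hj⟩ := hβodd
      exact ⟨j - 2 * k, by linear_combination hj - hcβ⟩
    obtain ⟨he, hk2⟩ : c + k = r ^ 2 - s ^ 2 ∧ 2 * k = 2 * r * s := by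
      rcases hrs with h | ⟨h, -⟩
      · exact h
      · exact absurd heodd (Int.not_odd_iff_even.mpr ⟨r * s, by rw [h]; ring⟩)
    have hkrs : k = r * s := by linarith
    have hcors : IsCoprime r s := Int.isCoprime_iff_gcd_eq_one.mpr hgrs
    obtain ⟨hcfg', hfodd', -⟩ := isCoprime_forms hcors
    have hprod : (r ^ 2 - 11 * r * s - s ^ 2) * (r ^ 2 + r * s - s ^ 2) = z ^ 2 := by
      refine mul_left_cancel₀ (by norm_num : (5 : ℤ) ≠ 0) ?_
      rw [← hz, ← hβ2, hcβ]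
      linear_combination (-5 * (r ^ 2 - 10 * (r * s) - s ^ 2 + (c + k))) * he +
        (5 * (10 * (c + k) + 11 * (k + r * s))) * hkrs
    have hlt : (r * s).natAbs < N := by
      rw [← hkrs, ← hN, hma, hnd]
      have h1 : 5 * k.natAbs ≤ c.natAbs + b.natAbs := by omega
      have h2 : (a * c * (b * d)).natAbs = a.natAbs * d.natAbs * (c.natAbs * b.natAbs) := by
        simp [Int.natAbs_mul]; ring
      have h3 : 1 ≤ a.natAbs * d.natAbs :=
        Nat.one_le_iff_ne_zero.mpr (mul_ne_zero (Int.natAbs_ne_zero.mpr ha0)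
          (Int.natAbs_ne_zero.mpr hd0))
      have hc1 : 1 ≤ c.natAbs := Int.natAbs_pos.mpr hc0
      have hb1 : 1 ≤ b.natAbs := Int.natAbs_pos.mpr hb0
      rw [h2]
      have h4 : c.natAbs * b.natAbs ≤ a.natAbs * d.natAbs * (c.natAbs * b.natAbs) :=
        Nat.le_mul_of_pos_left _ (by omega)
      nlinarith [h1, h4, hc1, hb1]
    have hrs0 : r * s ≠ 0 := hkrs ▸ hk0
    have h5 : ¬ ((5 : ℤ) ∣ c ∧ (5 : ℤ) ∣ β) := fun ⟨h, h'⟩ => by
      exact absurd (Int.isUnit_iff.mp (hcoβ.isUnit_of_dvd' h h')) (by norm_num)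
    rcases lt_or_gt_of_ne (show r ^ 2 + r * s - s ^ 2 ≠ 0 from fun h => by
      rw [h] at hfodd'; exact absurd hfodd' (by decide)) with hlt0 | hgt0
    · -- apply the symmetry `(r, s) ↦ (s, -r)`
      obtain ⟨⟨z', hz'⟩, w', hw'⟩ := int_sq_of_mul_sq
        (p := -(r ^ 2 - 11 * r * s - s ^ 2)) (q := -(r ^ 2 + r * s - s ^ 2)) (r := z)
        hcfg'.symm.neg_neg (by linarith) (by rw [neg_mul_neg]; exact hprod)
      have := ih _ hlt s (-r) w' z' (by rw [mul_neg, Int.natAbs_neg, mul_comm])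
        hcors.symm.neg_right (by simpa [mul_comm] using hrs0)
        (by linear_combination hw') (by linear_combination hz')
      subst this
      exact h5 ⟨⟨-r ^ 2, by linear_combination he - hkrs⟩,
        ⟨r ^ 2, by linear_combination hcβ + he + 4 * hkrs⟩⟩
    · obtain ⟨⟨z', hz'⟩, w', hw'⟩ := int_sq_of_mul_sq hcfg'.symm hgt0 (r := z) hprod
      have := ih _ hlt r s w' z' rfl hcors hrs0 hw' hz'
      subst this
      exact h5 ⟨⟨s ^ 2, by linear_combination he - hkrs⟩,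
        ⟨-s ^ 2, by linear_combination hcβ + he + 4 * hkrs⟩⟩

/-- The integral solutions of `(m² + mn - n²)(m² - 11mn - n²) = □` with `m`, `n` coprime. -/
theorem descent {m n : ℤ} (hco : IsCoprime m n)
    (h : IsSquare ((m ^ 2 + m * n - n ^ 2) * (m ^ 2 - 11 * m * n - n ^ 2))) :
    m * n = 0 ∨ m = -2 * n ∨ n = 2 * m := by
  rcases eq_or_ne (m * n) 0 with h0 | h0
  · exact Or.inl h0
  obtain ⟨e, he⟩ := h
  obtain ⟨hcfg, hfodd, -⟩ := isCoprime_forms hco
  rcases lt_or_gt_of_ne (show m ^ 2 + m * n - n ^ 2 ≠ 0 from fun h => by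
    rw [h] at hfodd; exact absurd hfodd (by decide)) with hlt | hgt
  · obtain ⟨⟨v, hv⟩, u, hu⟩ := int_sq_of_mul_sq (p := -(m ^ 2 - 11 * m * n - n ^ 2))
      (q := -(m ^ 2 + m * n - n ^ 2)) (r := e) hcfg.symm.neg_neg (by linarith)
      (by linear_combination he)
    refine Or.inr (Or.inr ?_)
    have := descent_pos _ n (-m) u v rfl hco.symm.neg_right (by simpa [mul_comm] using h0)
      (by linear_combination hu) (by linear_combination hv)
    linarith
  · obtain ⟨⟨v, hv⟩, u, hu⟩ := int_sq_of_mul_sq hcfg.symm hgt (r := e)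
      (by linear_combination he)
    exact Or.inr (Or.inl (descent_pos _ m n u v rfl hco h0 hu hv))

end FA.EC.X15
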