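/-
The fibre product of the `j`-maps of `X₀(3)` and `X₀(5)` over `ℚ`: if
`(s + 27)(s + 3)³ / s = (t² + 10t + 5)³ / t` with `s, t ≠ 0` rational, then `t` is one of
`-40, -25/2, -25/8, -10`.
-/
import Fermat.Agent.EC.X15Descent
import Mathlib.Data.Rat.Lemmas
import Mathlib.Tactic.FieldSimp

set_option autoImplicit false

namespace FA.EC.X15

lemma rat_sq_ne_five (x : ℚ) : x ^ 2 ≠ 5 := by
  intro h
  have h5 : IsSquare ((5 : ℤ) : ℚ) := ⟨x, by rw [← sq, h]; norm_num⟩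
  obtain ⟨r, hr⟩ := Rat.isSquare_intCast_iff.mp h5
  have h3 := congrArg (fun z : ℤ => (z : ZMod 3)) hr
  push_cast at h3
  have : ∀ r : ZMod 3, (5 : ZMod 3) ≠ r * r := by decide
  exact this _ h3

lemma rat_sq_ne_twenty (x : ℚ) : x ^ 2 ≠ 20 := fun h =>
  rat_sq_ne_five (x / 2) (by rw [div_pow, h]; norm_num)

lemma fibre_identity {R : Type*} [CommRing R] (s t : R) :
    -(((s + 3) * (t ^ 2 + 4 * t - 1)) * (s ^ 2 + 18 * s - 3 * t ^ 3 - 39 * t ^ 2 - 105 * t) ^ 3) * t ^ 2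
    + (((s + 3) * (t ^ 2 + 4 * t - 1)) ^ 4 - 9 * ((s + 3) * (t ^ 2 + 4 * t - 1)) ^ 3 * (s ^ 2 + 18 * s - 3 * t ^ 3 - 39 * t ^ 2 - 105 * t) - 9 * ((s + 3) * (t ^ 2 + 4 * t - 1)) * (s ^ 2 + 18 * s - 3 * t ^ 3 - 39 * t ^ 2 - 105 * t) ^ 3 - (s ^ 2 + 18 * s - 3 * t ^ 3 - 39 * t ^ 2 - 105 * t) ^ 4) * t
      - 125 * ((s + 3) * (t ^ 2 + 4 * t - 1)) ^ 3 * (s ^ 2 + 18 * s - 3 * t ^ 3 - 39 * t ^ 2 - 105 * t) =
    (-486 - 513 * s + 4887 * s * t + 5481 * s * t^2 + 1917 * s * t^3 + 216 * s * t^4 - 189 * s^2 - 315 * s^2 * t - 117 * s^2 * t^2 - 9 * s^2 * t^3 - 27 * s^3 - 35 * s^3 * t - 13 * s^3 * t^2 - s^3 * t^3 - s^4 + 5616 * t - 19305 * t^2 - 32832 * t^3 - 18468 * t^4 - 4833 * t^5 - 594 * t^6 - 27 * t^7) * ((s + 27) * (s + 3) ^ 3 * t - (t ^ 2 + 10 * t + 5) ^ 3 * s) := by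
  ring

/-- The function `A` on the fibre product satisfies a quadratic relation with `t`. -/
lemma fibre_key {s t ν D : ℚ} (hν : ν = (s + 3) * (t ^ 2 + 4 * t - 1))
    (hD : D = s ^ 2 + 18 * s - 3 * t ^ 3 - 39 * t ^ 2 - 105 * t)
    (hF : (s + 27) * (s + 3) ^ 3 * t = (t ^ 2 + 10 * t + 5) ^ 3 * s) :
    -(ν * D ^ 3) * t ^ 2 + (ν ^ 4 - 9 * ν ^ 3 * D - 9 * ν * D ^ 3 - D ^ 4) * t
      - 125 * ν ^ 3 * D = 0 := by
  subst hν hD
  rw [fibre_identity, sub_eq_zero.mpr hF, mul_zero]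

/-- The points of the fibre product. -/
theorem fibre_points {s t : ℚ} (hs : s ≠ 0) (ht : t ≠ 0)
    (hF : (s + 27) * (s + 3) ^ 3 * t = (t ^ 2 + 10 * t + 5) ^ 3 * s) :
    t = -40 ∨ t = -25 / 2 ∨ t = -25 / 8 ∨ t = -10 := by
  obtain ⟨ν, hν⟩ : ∃ ν, ν = (s + 3) * (t ^ 2 + 4 * t - 1) := ⟨_, rfl⟩
  obtain ⟨D, hD⟩ : ∃ D, D = s ^ 2 + 18 * s - 3 * t ^ 3 - 39 * t ^ 2 - 105 * t := ⟨_, rfl⟩
  have key := fibre_key hν hD hF
  have hD0 : D ≠ 0 := by
    intro h0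
    rw [h0] at key
    have hν0 : ν = 0 := by
      have : ν ^ 4 * t = 0 := by linear_combination key
      exact (pow_eq_zero_iff (n := 4) (by norm_num)).mp ((mul_eq_zero.mp this).resolve_right ht)
    rw [hν] at hν0
    rcases mul_eq_zero.mp hν0 with h | h
    · obtain rfl : s = -3 := by linarith
      have : t ^ 2 + 10 * t + 5 = 0 := by
        have h' : (t ^ 2 + 10 * t + 5) ^ 3 = 0 := by linear_combination (1 / 3 : ℚ) * hF
        exact pow_eq_zero_iff (n := 3) (by norm_num) |>.mp h'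
      exact rat_sq_ne_twenty (t + 5) (by linear_combination this)
    · exact rat_sq_ne_five (t + 2) (by linear_combination h)
  obtain ⟨A, hA⟩ : ∃ A, A = ν / D := ⟨_, rfl⟩
  have hν' : ν = A * D := by rw [hA, div_mul_cancel₀ _ hD0]
  have hq : -(A * t ^ 2) + (A ^ 4 - 9 * A ^ 3 - 9 * A - 1) * t - 125 * A ^ 3 = 0 := by
    rw [hν'] at key
    refine mul_left_cancel₀ (pow_ne_zero 4 hD0) ?_
    linear_combination key
  have hA0 : A ≠ 0 := by
    intro h0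
    rw [h0] at hq
    exact ht (by linear_combination -hq)
  have hQ : IsSquare ((A ^ 2 + A - 1) * (A ^ 2 - 11 * A - 1)) := by
    have hne : A ^ 2 - 4 * A - 1 ≠ 0 := fun h => rat_sq_ne_five (A - 2) (by linear_combination h)
    refine ⟨(-2 * A * t + (A ^ 4 - 9 * A ^ 3 - 9 * A - 1)) / (A ^ 2 - 4 * A - 1), ?_⟩
    rw [div_mul_div_comm, eq_div_iff (mul_ne_zero hne hne)]
    linear_combination 4 * A * hq
  have hco : IsCoprime A.num (A.den : ℤ) := by
    rw [Int.isCoprime_iff_gcd_eq_one, Int.gcd, Int.natAbs_natCast]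
    exact A.reduced
  have hden : (A.den : ℚ) ≠ 0 := Nat.cast_ne_zero.mpr A.den_ne_zero
  have hnd : (A.num : ℚ) = A * A.den := by rw [Rat.mul_den_eq_num]
  have hsq : IsSquare ((A.num ^ 2 + A.num * A.den - (A.den : ℤ) ^ 2) *
      (A.num ^ 2 - 11 * A.num * A.den - (A.den : ℤ) ^ 2)) := by
    refine Rat.isSquare_intCast_iff.mp ?_
    obtain ⟨y, hy⟩ := hQ
    refine ⟨y * (A.den : ℚ) ^ 2, ?_⟩
    push_cast
    rw [hnd]
    linear_combination ((A.den : ℚ) ^ 4) * hy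
  have hAv : A = -2 ∨ A = 1 / 2 := by
    rcases descent hco hsq with h | h | h
    · rcases mul_eq_zero.mp h with h | h
      · exact absurd (Rat.num_eq_zero.mp h) hA0
      · exact absurd (by exact_mod_cast h) A.den_ne_zero
    · left
      have h' : (A.num : ℚ) = -2 * A.den := by exact_mod_cast h
      exact mul_right_cancel₀ hden (hnd.symm.trans h')
    · right
      have h' : (A.den : ℚ) = 2 * A.num := by exact_mod_cast h
      rw [hnd] at h'
      refine mul_right_cancel₀ hden ?_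
      linarith
  rcases hAv with h | h <;> rw [h] at hq
  · have : (t + 40) * (t + 25 / 2) = 0 := by linear_combination (1 / 2 : ℚ) * hq
    rcases mul_eq_zero.mp this with h | h
    · exact Or.inl (by linarith)
    · exact Or.inr (Or.inl (by linarith))
  · have : (t + 25 / 8) * (t + 10) = 0 := by linear_combination (-2 : ℚ) * hq
    rcases mul_eq_zero.mp this with h | h
    · exact Or.inr (Or.inr (Or.inl (by linarith)))
    · exact Or.inr (Or.inr (Or.inr (by linarith)))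

end FA.EC.X15
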