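/-
For a semistable integral Weierstrass curve, the mod `3` and mod `5` representations cannot both
be reducible.
-/
import Fermat.Agent.EC.TorsionGalois
import Fermat.Agent.EC.IsogenyJ
import Fermat.Agent.EC.X15Fibre
import Fermat.Prelude.Def_FLTPrelim_ModularRep
import Mathlib.FieldTheory.Galois.Infinite

set_option autoImplicit false
set_option linter.unusedSectionVars false

open WeierstrassCurve WeierstrassCurve.Affine.Point Polynomial
open scoped WeierstrassCurve.Affine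

namespace FA.EC

local notation "Qb" => AlgebraicClosure ℚ

variable (E : WeierstrassCurve ℚ) [E.IsElliptic]

lemma isGalois_algebraicClosure : IsGalois ℚ Qb := by
  have : Algebra.IsAlgebraic ℚ Qb := AlgebraicClosure.isAlgebraic ℚ
  have : IsAlgClosure ℚ Qb := ⟨inferInstance, this⟩
  exact isGalois_iff.mpr ⟨inferInstance, IsAlgClosure.normal ℚ Qb⟩

lemma mem_range_of_fixed {x : Qb} (h : ∀ σ : Qb ≃ₐ[ℚ] Qb, σ x = x) :
    ∃ q : ℚ, algebraMap ℚ Qb q = x :=
  haveI := isGalois_algebraicClosure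
  IntermediateField.mem_bot.mp ((InfiniteGalois.mem_bot_iff_fixed x).mpr h)

lemma xc_smul (σ : Qb ≃ₐ[ℚ] Qb) (P : (E⁄Qb).Point) :
    xc (W := E⁄Qb) (σ • P) = σ (xc (W := E⁄Qb) P) := by
  rcases P with _ | ⟨x, y, h⟩
  · exact (_root_.map_zero σ).symm
  · rfl

lemma eval_baseChange (σ : Qb ≃ₐ[ℚ] Qb) (f : ℚ[X]) (x : Qb) :
    σ ((f.map (algebraMap ℚ Qb)).eval x) = (f.map (algebraMap ℚ Qb)).eval (σ x) := by
  simp only [eval_map, ← aeval_def]
  exact (aeval_algHom_apply σ.toAlgHom x f).symm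

lemma Ψ₂Sq_baseChange : (E⁄Qb).Ψ₂Sq = E.Ψ₂Sq.map (algebraMap ℚ Qb) :=
  map_Ψ₂Sq E _

/-- A nonzero point generating a Galois stable line, when the mod `p` representation is
reducible. -/
lemma exists_stable_point {p : ℕ} [hp : Fact p.Prime]
    (hred : ¬ GaloisRepIsIrreducible (K := Qb) ℚ E p) :
    ∃ P : (E⁄Qb).Point, P ≠ 0 ∧ p • P = 0 ∧ ∀ σ : Qb ≃ₐ[ℚ] Qb, ∃ k < p, σ • P = k • P := by
  have hfin := finite_torsion E hp.out.ne_zero
  have hnt : Nontrivial (Submodule.torsionBy ℤ (E⁄Qb).Point p) := by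
    rw [← Finite.one_lt_card_iff_nontrivial, natCard_torsion E hp.out.ne_zero]
    exact Nat.one_lt_pow two_ne_zero hp.out.one_lt
  rw [GaloisRepIsIrreducible] at hred
  simp only [hnt, true_and, not_forall, not_or] at hred
  obtain ⟨N, hstab, hbot, htop⟩ := hred
  obtain ⟨z, hzN, hz0⟩ := Submodule.exists_mem_ne_zero_of_ne_bot hbot
  have hlt := Submodule.finrank_lt htop
  rw [finrank_torsion E p] at hlt
  have hge : 1 ≤ Module.finrank (ZMod p) N := Submodule.one_le_finrank_iff.mpr hbot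
  have h1 : Module.finrank (ZMod p) N = 1 := by omega
  refine ⟨z.1, fun h => hz0 (Subtype.ext h), ?_, fun σ => ?_⟩
  · have := z.2
    rwa [Submodule.mem_torsionBy_iff, natCast_zsmul] at this
  · obtain ⟨c, hc⟩ := (finrank_eq_one_iff_of_nonzero' (⟨z, hzN⟩ : N)
      (fun h => hz0 (congrArg Subtype.val h))).mp h1 ⟨σ • z, hstab σ z hzN⟩
    refine ⟨c.val, ZMod.val_lt c, ?_⟩
    have hc' : (c.val : ZMod p) • z = σ • z := by
      rw [ZMod.natCast_zmod_val]; exact congrArg Subtype.val hc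
    rw [Nat.cast_smul_eq_nsmul] at hc'
    exact (congrArg Subtype.val hc').symm

/-- Reducibility mod `3` gives a rational root of `Ψ₃`. -/
lemma exists_root_Ψ₃ (hred : ¬ GaloisRepIsIrreducible (K := Qb) ℚ E 3) :
    ∃ x : ℚ, E.Ψ₃.eval x = 0 := by
  have : Fact (Nat.Prime 3) := ⟨Nat.prime_three⟩
  obtain ⟨P, hP0, hP3, hσ⟩ := exists_stable_point E hred
  obtain ⟨x, y, h, rfl⟩ := exists_some_of_ne_zero (W := E⁄Qb) hP0
  have hroot : (E⁄Qb).Ψ₃.eval x = 0 := by
    have := (nsmul_eq_zero_iff h 3).mp hP3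
    simpa using this
  have hfix : ∀ σ : Qb ≃ₐ[ℚ] Qb, σ x = x := fun σ => by
    obtain ⟨k, hk, hkσ⟩ := hσ σ
    have hx := xc_smul E σ (.some x y h)
    rw [hkσ, xc_some] at hx
    interval_cases k
    · exfalso
      rw [zero_nsmul] at hkσ
      have := congrArg (fun Q : (E⁄Qb).Point => σ⁻¹ • Q) hkσ
      simp only [inv_smul_smul, smul_zero] at this
      exact hP0 this
    · rwa [one_nsmul, xc_some, eq_comm] at hx
    · rw [show (2 : ℕ) • Affine.Point.some x y h = -Affine.Point.some x y h from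
        eq_neg_of_add_eq_zero_left (by rw [← succ_nsmul]; exact hP3), xc_neg, xc_some] at hx
      exact hx.symm
  obtain ⟨q, rfl⟩ := mem_range_of_fixed hfix
  refine ⟨q, (algebraMap ℚ Qb).injective ?_⟩
  rw [show (E⁄Qb).Ψ₃ = E.Ψ₃.map (algebraMap ℚ Qb) from map_Ψ₃ E _, eval_map,
    eval₂_at_apply] at hroot
  rw [hroot, _root_.map_zero]

/-- Reducibility mod `5` gives the parameter of the `5`-isogeny. -/
lemma exists_param_five (hred : ¬ GaloisRepIsIrreducible (K := Qb) ℚ E 5) :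
    ∃ t : ℚ, t ≠ 0 ∧ E.c₄ ^ 3 * t = (t ^ 2 + 10 * t + 5) ^ 3 * E.Δ := by
  have : Fact (Nat.Prime 5) := ⟨Nat.prime_five⟩
  obtain ⟨P, hP0, hP5, hσ⟩ := exists_stable_point E hred
  obtain ⟨x, y, h, rfl⟩ := exists_some_of_ne_zero (W := E⁄Qb) hP0
  set P : (E⁄Qb).Point := .some x y h
  have hP2 : P + P ≠ 0 := fun h2 => hP0 <| by
    have : (5 : ℕ) • P = P + (P + P) + (P + P) := by abel
    rw [hP5, h2, add_zero, add_zero] at this
    exact this.symm
  have hP3 : (3 : ℕ) • P ≠ 0 := fun h3 => hP2 <| by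
    have : (5 : ℕ) • P = (3 : ℕ) • P + (P + P) := by abel
    rw [hP5, h3, zero_add] at this
    exact this.symm
  have hpc : pc (W := E⁄Qb) P ≠ 0 := fun h0 => hP2 (add_self_eq_zero_of_pc_eq_zero h0)
  have hC : (E⁄Qb).Ψ₂Sq.eval x ≠ 0 := by
    have := pc_sq (W := E⁄Qb) hP0
    rw [xc_some] at this
    rw [← this]
    exact pow_ne_zero 2 hpc
  have hE : (E⁄Qb).Ψ₃.eval x ≠ 0 := fun h0 => hP3 <| by
    refine (nsmul_eq_zero_iff h 3).mpr ?_
    simp [h0]
  have h5 : (E⁄Qb).preΨ₄.eval x * (E⁄Qb).Ψ₂Sq.eval x ^ 2 = (E⁄Qb).Ψ₃.eval x ^ 3 := by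
    have h0 := (nsmul_eq_zero_iff h 5).mp hP5
    rw [ΨSq_ofNat, if_neg (by decide), mul_one, eval_pow] at h0
    have h0' := (pow_eq_zero_iff two_ne_zero).mp h0
    rw [show (5 : ℕ) = 2 * (0 + 2) + 1 by norm_num, preΨ'_odd] at h0'
    simp only [zero_add, preΨ'_four, preΨ'_two, preΨ'_one, preΨ'_three, Even.zero, if_true,
      one_pow, mul_one, one_mul, eval_sub, eval_mul, eval_pow] at h0'
    linear_combination h0'
  obtain ⟨ht0, ht⟩ := param_five (E⁄Qb) x hC hE h5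
  set x₂ := secondX (E⁄Qb) x with hx₂
  have hx2' : xc (W := E⁄Qb) ((2 : ℕ) • P) = x₂ := by
    rw [two_nsmul, (xc_add_self (W := E⁄Qb) hP0 hpc).2, hx₂, secondX, pc_sq (W := E⁄Qb) hP0,
      xc_some]
  have hfix : ∀ σ : Qb ≃ₐ[ℚ] Qb, σ (fiveParam (E⁄Qb) x x₂) = fiveParam (E⁄Qb) x x₂ := fun σ => by
    obtain ⟨k, hk, hkσ⟩ := hσ σ
    have h1 : xc (W := E⁄Qb) (k • P) = σ x := by rw [← hkσ, xc_smul, xc_some]
    have h2 : xc (W := E⁄Qb) ((2 * k) • P) = σ x₂ := by
      rw [← hx2', ← xc_smul, two_nsmul, show σ • (P + P) = σ • P + σ • P from smul_add σ P P, hkσ,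
        ← add_nsmul, ← two_mul]
    have hmap : σ (fiveParam (E⁄Qb) x x₂) = fiveParam (E⁄Qb) (σ x) (σ x₂) := by
      simp only [fiveParam, Ψ₂Sq_baseChange, map_sub, map_add, map_div₀, map_pow, eval_baseChange,
        map_ofNat]
    rw [hmap, ← h1, ← h2]
    have hneg : ∀ m, m ≤ 5 → xc (W := E⁄Qb) ((5 - m) • P) = xc (W := E⁄Qb) (m • P) := fun m hm => by
      rw [← xc_neg (W := E⁄Qb) (m • P)]
      congr 1
      refine eq_neg_of_add_eq_zero_left ?_
      rw [← add_nsmul, Nat.sub_add_cancel hm, hP5]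
    have hper : ∀ m, xc (W := E⁄Qb) ((m + 5) • P) = xc (W := E⁄Qb) (m • P) := fun m => by
      rw [add_nsmul, hP5, add_zero]
    have e1 : xc (W := E⁄Qb) ((1 : ℕ) • P) = x := by rw [one_nsmul, xc_some]
    have e4 : xc (W := E⁄Qb) ((4 : ℕ) • P) = x := by rw [← hneg 4 (by norm_num)]; exact e1
    have e3 : xc (W := E⁄Qb) ((3 : ℕ) • P) = x₂ := by rw [← hneg 3 (by norm_num)]; exact hx2'
    interval_cases k
    · exfalso
      rw [zero_nsmul] at hkσ
      have := congrArg (fun Q : (E⁄Qb).Point => σ⁻¹ • Q) hkσ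
      simp only [inv_smul_smul, smul_zero] at this
      exact hP0 this
    · rw [e1, hx2']
    · rw [hx2', e4, fiveParam_comm]
    · rw [e3, show 2 * 3 = 1 + 5 by norm_num, hper, e1, fiveParam_comm]
    · rw [e4, show 2 * 4 = 3 + 5 by norm_num, hper, e3]
  obtain ⟨q, hq⟩ := mem_range_of_fixed hfix
  refine ⟨q, fun h0 => ht0 ?_, (algebraMap ℚ Qb).injective ?_⟩
  · rw [← hq, h0, _root_.map_zero]
  · rw [← hq] at ht
    simp only [map_mul, map_pow, map_add, map_ofNat]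
    rw [show (E⁄Qb).c₄ = algebraMap ℚ Qb E.c₄ from map_c₄ E _,
      show (E⁄Qb).Δ = algebraMap ℚ Qb E.Δ from map_Δ E _] at ht
    exact ht

/-- The four `j`-invariants are not semistable. -/
lemma not_semistable_of_five {W : WeierstrassCurve ℤ} (hW : W.IsSemistableModel) {num den : ℤ}
    (h : den * W.c₄ ^ 3 = num * W.Δ) (h5 : (5 : ℤ) ∣ num) (h125 : ¬ (125 : ℤ) ∣ num)
    (hden : ¬ (5 : ℤ) ∣ den) : False := by
  have hp : Prime (5 : ℤ) := Nat.prime_iff_prime_int.mp Nat.prime_five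
  have hc : (5 : ℤ) ∣ W.c₄ := hp.dvd_of_dvd_pow
    ((hp.dvd_or_dvd (h ▸ dvd_mul_of_dvd_left h5 _ : (5 : ℤ) ∣ den * W.c₄ ^ 3)).resolve_left hden)
  have hΔ5 : ¬ (5 : ℤ) ∣ W.Δ := fun hd => hW 5 Nat.prime_five hd hc
  apply h125
  have hco : IsCoprime ((5 : ℤ) ^ 3) W.Δ := (hp.coprime_iff_not_dvd.mpr hΔ5).pow_left
  refine (show (5 : ℤ) ^ 3 = 125 by norm_num) ▸ hco.dvd_of_dvd_mul_right ?_
  rw [← h]
  exact dvd_mul_of_dvd_right (pow_dvd_pow_of_dvd hc 3) den

theorem modThreeOrFive (W : WeierstrassCurve ℤ) (hΔ : W.Δ ≠ 0) (hW : W.IsSemistableModel) :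
    W.ModRepIsIrreducible 3 ∨ W.ModRepIsIrreducible 5 := by
  have hd : (W.map (Int.castRingHom ℚ)).Δ = (W.Δ : ℚ) := by rw [map_Δ]; rfl
  have hc : (W.map (Int.castRingHom ℚ)).c₄ = (W.c₄ : ℚ) := by rw [map_c₄]; rfl
  have : (W.map (Int.castRingHom ℚ)).IsElliptic :=
    ⟨by rw [hd]; exact (Int.cast_ne_zero.mpr hΔ).isUnit⟩
  by_contra hcon
  rw [not_or] at hcon
  obtain ⟨x, hx⟩ := exists_root_Ψ₃ _ hcon.1
  obtain ⟨s, hs, hsj⟩ := exists_param_three _ x hx
  obtain ⟨t, ht, htj⟩ := exists_param_five _ hcon.2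
  rw [hd, hc] at hsj htj
  have hF : (s + 27) * (s + 3) ^ 3 * t = (t ^ 2 + 10 * t + 5) ^ 3 * s :=
    mul_right_cancel₀ (Int.cast_ne_zero.mpr hΔ : (W.Δ : ℚ) ≠ 0)
      (by linear_combination s * htj - t * hsj)
  rcases X15.fibre_points hs ht hF with rfl | rfl | rfl | rfl
  · refine not_semistable_of_five hW (num := -(25 * 241 ^ 3)) (den := 8) ?_
      (by norm_num) (by norm_num) (by norm_num)
    refine Int.cast_injective (α := ℚ) ?_
    push_cast
    linear_combination (-1 / 5 : ℚ) * htj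
  · refine not_semistable_of_five hW (num := -(5 * 29 ^ 3)) (den := 32) ?_
      (by norm_num) (by norm_num) (by norm_num)
    refine Int.cast_injective (α := ℚ) ?_
    push_cast
    linear_combination (-64 / 25 : ℚ) * htj
  · refine not_semistable_of_five hW (num := 5 * 211 ^ 3) (den := 32768) ?_
      (by norm_num) (by norm_num) (by norm_num)
    refine Int.cast_injective (α := ℚ) ?_
    push_cast
    linear_combination (-262144 / 25 : ℚ) * htj
  · refine not_semistable_of_five hW (num := -25) (den := 2) ?_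
      (by norm_num) (by norm_num) (by norm_num)
    refine Int.cast_injective (α := ℚ) ?_
    push_cast
    linear_combination (-1 / 5 : ℚ) * htj

end FA.EC
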