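import Fermat.Agent.EC.S51Aux

/-!
# The parameter of a rational `7`-isogeny

A Galois stable line in the `7`-torsion gives a rational `t` with
`c₄³ t = (t² + 13 t + 49) (t² + 5 t + 1)³ Δ`.
-/

set_option autoImplicit false
set_option linter.unusedSectionVars false

noncomputable section

open WeierstrassCurve WeierstrassCurve.Affine.Point Polynomial
open scoped WeierstrassCurve.Affine

namespace FA.EC

universe u

section Field

variable {F : Type u} [Field F] (W : WeierstrassCurve F) (x : F)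

/-- Tate's parameter `d` of a point of order `7` with `x`-coordinate `x`. -/
def sevenD : F :=
  W.Ψ₃.eval x ^ 3 / (W.Ψ₂Sq.eval x ^ 2 * W.preΨ₄.eval x)

/-- The parameter of the subgroup generated by a point of order `7`. -/
def sevenParam : F :=
  (sevenD W x ^ 3 - 8 * sevenD W x ^ 2 + 5 * sevenD W x + 1) /
    (sevenD W x * (sevenD W x - 1))

/-- The conditions on the `x`-coordinate of a point of order `7`. -/
structure IsSevenX : Prop where
  two : W.Ψ₂Sq.eval x ≠ 0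
  three : W.Ψ₃.eval x ≠ 0
  four : W.preΨ₄.eval x ≠ 0
  seven : (W.preΨ₄.eval x * W.Ψ₂Sq.eval x ^ 2 - W.Ψ₃.eval x ^ 3) * W.Ψ₃.eval x ^ 3 -
    W.Ψ₂Sq.eval x ^ 2 * W.preΨ₄.eval x ^ 3 = 0

variable {W x}

lemma IsSevenX.data (h : IsSevenX W x) : ∃ q d : F, q ≠ 0 ∧ d ≠ 0 ∧ 1 - d ≠ 0 ∧
    sevenD W x = d ∧ secondX W x = x - q ∧ W.Ψ₂Sq.eval x = q ^ 3 / (d ^ 2 * (1 - d)) ∧
    W.Ψ₃.eval x = q ^ 4 / (d ^ 2 * (1 - d)) ∧
    shiftB₄ W x = q ^ 2 * (1 + d - d ^ 2) / (d ^ 2 * (1 - d)) := by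
  obtain ⟨h2, h3, h4, h7⟩ := h
  have hp := preΨ₄_eq_shift W x
  have hd : sevenD W x * (W.Ψ₂Sq.eval x ^ 2 * W.preΨ₄.eval x) = W.Ψ₃.eval x ^ 3 := by
    simp only [sevenD]
    exact div_mul_cancel₀ _ (mul_ne_zero (pow_ne_zero 2 h2) h4)
  have hq : secondX W x = x - W.Ψ₃.eval x / W.Ψ₂Sq.eval x := rfl
  generalize sevenD W x = d at hd
  generalize W.Ψ₂Sq.eval x = C at *
  generalize W.Ψ₃.eval x = E at *
  generalize W.preΨ₄.eval x = G at *
  generalize shiftB₄ W x = B at *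
  have hd0 : d ≠ 0 := fun e => pow_ne_zero 3 h3 (by linear_combination (-hd) + C ^ 2 * G * e)
  have hG : G = C ^ 2 * d * (1 - d) := mul_left_cancel₀
    (mul_ne_zero (pow_ne_zero 2 h4) (pow_ne_zero 2 h2)) (by
      linear_combination -h7 - (G * C ^ 2 - E ^ 3 - d * (C ^ 2 * G)) * hd)
  have hd1 : 1 - d ≠ 0 := fun e => h4 (by rw [hG, e, mul_zero])
  have hE : E ^ 3 = C ^ 4 * (d ^ 2 * (1 - d)) := by
    rw [← hd, hG]; ring
  refine ⟨E / C, d, div_ne_zero h3 h2, hd0, hd1, rfl, hq, ?_, ?_, ?_⟩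
  · field_simp
    linear_combination -hE
  · field_simp
    linear_combination -hE
  · rw [hG] at hp
    field_simp
    refine mul_left_cancel₀ h3 ?_
    linear_combination -d ^ 2 * (1 - d) * C ^ 2 * hp -
      (1 + d - d ^ 2) * hE

/-- `j = (t² + 13 t + 49) (t² + 5 t + 1)³ / t`. -/
theorem IsSevenX.param (h : IsSevenX W x) :
    W.c₄ ^ 3 * sevenParam W x =
      (sevenParam W x ^ 2 + 13 * sevenParam W x + 49) *
        (sevenParam W x ^ 2 + 5 * sevenParam W x + 1) ^ 3 * W.Δ := by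
  obtain ⟨q, d, hq, hd0, hd1, hd, -, hC, hE, hB⟩ := h.data
  have hd1' : d - 1 ≠ 0 := sub_ne_zero.mpr fun e => hd1 (by rw [e, sub_self])
  have hr := shift_relation W x
  have hc := c₄_eq_shift W x
  have hD := Δ_eq_shift W x
  simp only [sevenParam, hd]
  rw [hC, hE, hB] at hr hD
  rw [hB] at hc
  generalize shiftB₂ W x = A at hr hc hD
  obtain rfl : A = (4 * (q ^ 4 / (d ^ 2 * (1 - d))) +
      (q ^ 2 * (1 + d - d ^ 2) / (d ^ 2 * (1 - d))) ^ 2) / (q ^ 3 / (d ^ 2 * (1 - d))) := by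
    rw [eq_div_iff (div_ne_zero (pow_ne_zero 3 hq) (mul_ne_zero (pow_ne_zero 2 hd0) hd1))]
    linear_combination -hr
  rw [hc, hD]
  field_simp
  ring

/-- Doubling does not change the parameter. -/
theorem IsSevenX.sevenParam_secondX (h : IsSevenX W x) (h' : IsSevenX W (secondX W x)) :
    sevenParam W (secondX W x) = sevenParam W x := by
  obtain ⟨q, d, hq, hd0, hd1, hd, hx, hC, hE, hB⟩ := h.data
  have hd1' : d - 1 ≠ 0 := sub_ne_zero.mpr fun e => hd1 (by rw [e, sub_self])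
  obtain ⟨n2, -, n4, -⟩ := h'
  rw [hx] at n2 n4 ⊢
  have e2 : W.Ψ₂Sq.eval (x - q) = W.Ψ₂Sq.eval x - 2 * shiftB₄ W x * q +
      shiftB₂ W x * q ^ 2 - 4 * q ^ 3 := by
    simp only [shiftB₂, shiftB₄, Ψ₂Sq, eval_add, eval_mul, eval_C, eval_pow, eval_X]; ring
  have e3 : W.Ψ₃.eval (x - q) = W.Ψ₃.eval x - 3 * q * W.Ψ₂Sq.eval x +
      3 * q ^ 2 * shiftB₄ W x - q ^ 3 * shiftB₂ W x + 3 * q ^ 4 := by
    simp only [shiftB₂, shiftB₄, Ψ₂Sq, Ψ₃, eval_add, eval_mul, eval_C, eval_pow, eval_X,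
      eval_ofNat]
    ring
  have e4 : shiftB₄ W (x - q) = shiftB₄ W x - q * shiftB₂ W x + 6 * q ^ 2 := by
    simp only [shiftB₂, shiftB₄]; ring
  have hr := shift_relation W x
  rw [hC, hE, hB] at hr e3
  rw [hB] at e4
  rw [hC, hB] at e2
  have hp := preΨ₄_eq_shift W (x - q)
  generalize shiftB₂ W x = A at hr e2 e3 e4
  obtain rfl : A = (4 * (q ^ 4 / (d ^ 2 * (1 - d))) +
      (q ^ 2 * (1 + d - d ^ 2) / (d ^ 2 * (1 - d))) ^ 2) / (q ^ 3 / (d ^ 2 * (1 - d))) := by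
    rw [eq_div_iff (div_ne_zero (pow_ne_zero 3 hq) (mul_ne_zero (pow_ne_zero 2 hd0) hd1))]
    linear_combination -hr
  have key : W.Ψ₃.eval (x - q) ^ 3 * d =
      (d - 1) * (W.Ψ₂Sq.eval (x - q) ^ 2 * W.preΨ₄.eval (x - q)) := by
    rw [hp, e2, e3, e4]
    field_simp
    ring
  have hd' : sevenD W (x - q) = (d - 1) / d := by
    rw [sevenD, div_eq_div_iff (mul_ne_zero (pow_ne_zero 2 n2) n4) hd0]
    exact key
  simp only [sevenParam, hd', hd]
  field_simp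
  ring

lemma isSevenX_xc [DecidableEq F] [W.IsElliptic] {P : W.toAffine.Point} (hP : P ≠ 0)
    (h7 : (7 : ℕ) • P = 0) : IsSevenX W (xc P) := by
  have hne : ∀ m : ℕ, 0 < m → m < 7 → m • P ≠ 0 := fun m hm hm' e => hP <| by
    have hco : Nat.gcd m 7 = 1 :=
      Nat.coprime_comm.mp ((Nat.Prime.coprime_iff_not_dvd (by norm_num)).mpr
        fun hdvd => absurd (Nat.le_of_dvd hm hdvd) (by omega))
    have := gcd_nsmul_eq_zero.mpr ⟨e, h7⟩
    rwa [hco, one_nsmul] at this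
  obtain ⟨x, y, h, rfl⟩ := exists_some_of_ne_zero hP
  rw [xc_some]
  refine ⟨fun e => hne 2 two_pos (by norm_num) ((nsmul_eq_zero_iff h 2).mpr (by simp [e])),
    fun e => hne 3 three_pos (by norm_num) ((nsmul_eq_zero_iff h 3).mpr (by simp [e])),
    fun e => hne 4 four_pos (by norm_num) ((nsmul_eq_zero_iff h 4).mpr (by simp [e])), ?_⟩
  have h0 := (nsmul_eq_zero_iff h 7).mp h7
  rw [ΨSq_ofNat, if_neg (by decide), mul_one, eval_pow] at h0
  have h0' := (pow_eq_zero_iff two_ne_zero).mp h0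
  rw [show (7 : ℕ) = 2 * (1 + 2) + 1 by norm_num, preΨ'_odd] at h0'
  simp only [Nat.reduceAdd, preΨ'_four, preΨ'_three, preΨ'_two, Nat.not_even_one,
    if_false, eval_sub, eval_mul, eval_pow, mul_one, one_mul] at h0'
  rw [show (5 : ℕ) = 2 * (0 + 2) + 1 by norm_num, preΨ'_odd] at h0'
  simp only [Nat.reduceAdd, preΨ'_four, preΨ'_three, preΨ'_two, preΨ'_one, Even.zero, if_true,
    one_pow, mul_one, one_mul, eval_sub, eval_mul, eval_pow] at h0'
  linear_combination h0'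

end Field

local notation "Qb" => AlgebraicClosure ℚ

variable (E : WeierstrassCurve ℚ) [E.IsElliptic]

lemma map_sevenParam (σ : Qb ≃ₐ[ℚ] Qb) (x : Qb) :
    σ (sevenParam (E⁄Qb) x) = sevenParam (E⁄Qb) (σ x) := by
  simp only [sevenParam, sevenD, Ψ₂Sq_baseChange,
    show (E⁄Qb).Ψ₃ = E.Ψ₃.map (algebraMap ℚ Qb) from map_Ψ₃ E _,
    show (E⁄Qb).preΨ₄ = E.preΨ₄.map (algebraMap ℚ Qb) from map_preΨ₄ E _,
    map_sub, map_add, map_mul, map_div₀, map_pow, eval_baseChange, map_ofNat, map_one]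

/-- Reducibility mod `7` gives the parameter of the `7`-isogeny. -/
theorem exists_param_seven (hred : ¬ GaloisRepIsIrreducible (K := Qb) ℚ E 7) :
    ∃ t : ℚ, t ≠ 0 ∧
      E.c₄ ^ 3 * t = (t ^ 2 + 13 * t + 49) * (t ^ 2 + 5 * t + 1) ^ 3 * E.Δ := by
  have : Fact (Nat.Prime 7) := ⟨by norm_num⟩
  obtain ⟨P, hP0, hP7, hσ⟩ := exists_stable_point E hred
  set r := sevenParam (E⁄Qb) (xc (W := E⁄Qb) P) with hr
  have hmul : ∀ Q : (E⁄Qb).Point, Q ≠ 0 → (7 : ℕ) • Q = 0 →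
      Q + Q ≠ 0 ∧ (7 : ℕ) • (Q + Q) = 0 ∧
        sevenParam (E⁄Qb) (xc (W := E⁄Qb) (Q + Q)) = sevenParam (E⁄Qb) (xc (W := E⁄Qb) Q) := by
    intro Q hQ hQ7
    have hX := isSevenX_xc (W := E⁄Qb) hQ hQ7
    have h2 : Q + Q ≠ 0 := fun h2 => hQ <| by
      have : (7 : ℕ) • Q = (Q + Q) + (Q + Q) + (Q + Q) + Q := by abel
      rw [hQ7, h2, add_zero, add_zero, zero_add] at this
      exact this.symm
    have h27 : (7 : ℕ) • (Q + Q) = 0 := by rw [nsmul_add, hQ7, add_zero]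
    have hpc : pc (W := E⁄Qb) Q ≠ 0 := fun h0 => h2 (add_self_eq_zero_of_pc_eq_zero h0)
    have hx2 : xc (W := E⁄Qb) (Q + Q) = secondX (E⁄Qb) (xc (W := E⁄Qb) Q) := by
      rw [(xc_add_self (W := E⁄Qb) hQ hpc).2, secondX, pc_sq (W := E⁄Qb) hQ]
    refine ⟨h2, h27, ?_⟩
    rw [hx2]
    exact hX.sevenParam_secondX (hx2 ▸ isSevenX_xc (W := E⁄Qb) h2 h27)
  obtain ⟨h2, h27, hr2⟩ := hmul P hP0 hP7
  obtain ⟨h4, -, hr4⟩ := hmul _ h2 h27
  have hfix : ∀ σ : Qb ≃ₐ[ℚ] Qb, σ r = r := fun σ => by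
    obtain ⟨k, hk, hkσ⟩ := hσ σ
    rw [hr, map_sevenParam, ← xc_smul, hkσ]
    have hneg : ∀ m, m ≤ 7 → xc (W := E⁄Qb) ((7 - m) • P) = xc (W := E⁄Qb) (m • P) :=
      fun m hm => by
      rw [← xc_neg (W := E⁄Qb) (m • P)]
      congr 1
      refine eq_neg_of_add_eq_zero_left ?_
      rw [← add_nsmul, Nat.sub_add_cancel hm, hP7]
    have e2 : sevenParam (E⁄Qb) (xc (W := E⁄Qb) ((2 : ℕ) • P)) = r := by rw [two_nsmul, hr2, hr]
    have e4 : sevenParam (E⁄Qb) (xc (W := E⁄Qb) ((4 : ℕ) • P)) = r := by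
      rw [show (4 : ℕ) • P = P + P + (P + P) by abel, hr4, hr2, hr]
    interval_cases k
    · exfalso
      rw [zero_nsmul] at hkσ
      have := congrArg (fun Q : (E⁄Qb).Point => σ⁻¹ • Q) hkσ
      simp only [inv_smul_smul, smul_zero] at this
      exact hP0 this
    · rw [one_nsmul]
    · exact e2
    · rw [show (3 : ℕ) = 7 - 4 from rfl, hneg 4 (by norm_num)]; exact e4
    · exact e4
    · rw [show (5 : ℕ) = 7 - 2 from rfl, hneg 2 (by norm_num)]; exact e2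
    · rw [show (6 : ℕ) = 7 - 1 from rfl, hneg 1 (by norm_num), one_nsmul]
  obtain ⟨q, hq⟩ := mem_range_of_fixed hfix
  have key : E.c₄ ^ 3 * q = (q ^ 2 + 13 * q + 49) * (q ^ 2 + 5 * q + 1) ^ 3 * E.Δ := by
    refine (algebraMap ℚ Qb).injective ?_
    have ht := (isSevenX_xc (W := E⁄Qb) hP0 hP7).param
    rw [← hr, ← hq, show (E⁄Qb).c₄ = algebraMap ℚ Qb E.c₄ from map_c₄ E _,
      show (E⁄Qb).Δ = algebraMap ℚ Qb E.Δ from map_Δ E _] at ht
    simpa only [map_mul, map_pow, map_add, map_ofNat, map_one] using ht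
  refine ⟨q, fun h0 => E.isUnit_Δ.ne_zero ?_, key⟩
  rw [h0] at key
  linarith

end FA.EC

end
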