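import Fermat.Agent.Torsion.Order14Descent

/-!
# The rational points of `X₀(14)`

A curve with a rational point of order `2` and a rational `7`-isogeny has the parameter `7` or
`-7` (`j = 255³` or `j = -15³`).
-/

set_option autoImplicit false

noncomputable section

namespace FA.EC.SevenFibre

lemma sq_ne_natCast {n : ℕ} (h : ¬ IsSquare n) (q : ℚ) : q ^ 2 ≠ (n : ℚ) := fun e =>
  h (Rat.isSquare_natCast_iff.mp ⟨q, by rw [← e, sq]⟩)

lemma exists_num_den (t : ℚ) :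
    ∃ u v : ℤ, 0 < v ∧ IsCoprime u v ∧ t * (v : ℚ) = (u : ℚ) := by
  refine ⟨t.num, t.den, by exact_mod_cast t.den_pos, ?_, by simp [Rat.mul_den_eq_num]⟩
  rw [Int.isCoprime_iff_gcd_eq_one, Int.gcd_eq_natAbs, Int.natAbs_natCast]
  exact t.reduced

lemma exists_int_of_sq {z : ℚ} {k : ℤ} (h : z ^ 2 = (k : ℚ)) : ∃ w : ℤ, w ^ 2 = k := by
  obtain ⟨w, hw⟩ := Rat.isSquare_intCast_iff.mp ⟨z, by rw [← h, sq]⟩
  exact ⟨w, by rw [hw, sq]⟩

/-- `h⁴ + 14 h³ + 63 h² + 70 h - 7` has no rational root. -/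
lemma seven_quartic_ne_zero (h : ℚ) :
    h ^ 4 + 14 * h ^ 3 + 63 * h ^ 2 + 70 * h - 7 ≠ 0 := by
  intro e
  obtain ⟨u, v, -, hco, huv⟩ := exists_num_den h
  have e0 : u ^ 4 + 14 * u ^ 3 * v + 63 * u ^ 2 * v ^ 2 + 70 * u * v ^ 3 - 7 * v ^ 4 = 0 := by
    apply Int.cast_injective (α := ℚ)
    push_cast
    rw [← huv]
    linear_combination (v : ℚ) ^ 4 * e
  have key : ∀ x y : ZMod 2, x ^ 4 + 14 * x ^ 3 * y + 63 * x ^ 2 * y ^ 2 + 70 * x * y ^ 3 -
      7 * y ^ 4 = 0 → x = 0 ∧ y = 0 := by decide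
  have e2 := congrArg (fun x : ℤ => (x : ZMod 2)) e0
  push_cast at e2
  obtain ⟨h1, h2⟩ := key _ _ e2
  exact Int.prime_two.not_isUnit (hco.isUnit_of_dvd'
    ((ZMod.intCast_zmod_eq_zero_iff_dvd u 2).mp h1) ((ZMod.intCast_zmod_eq_zero_iff_dvd v 2).mp h2))

/-- The affine points of `y² = x (x² - 11 x + 32)`. -/
theorem points_target {x y : ℚ} (h : y ^ 2 = x * (x ^ 2 - 11 * x + 32)) :
    x = 0 ∨ x = 4 ∨ x = 8 := by
  rcases eq_or_ne x 0 with hx | hx
  · exact Or.inl hx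
  obtain ⟨p, q, hq, hco, hpq⟩ := exists_num_den (x / 8)
  have hq' : (q : ℚ) ≠ 0 := Int.cast_ne_zero.mpr hq.ne'
  have hp : p ≠ 0 := fun e => by
    rw [e, Int.cast_zero] at hpq
    exact mul_ne_zero (div_ne_zero hx (by norm_num)) hq' hpq
  obtain ⟨R, hR⟩ : ∃ R : ℤ, R ^ 2 = p * q * (8 * p ^ 2 - 11 * p * q + 4 * q ^ 2) := by
    refine exists_int_of_sq (z := y * (q : ℚ) ^ 2 / 8) ?_
    push_cast
    rw [← hpq]
    linear_combination (q : ℚ) ^ 4 / 64 * h
  rcases FA.Torsion.Fourteen.descent hco hp hq.ne' hR.symm with e | e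
  · rw [e] at hpq hq'
    have : x / 8 = 1 := mul_right_cancel₀ hq' (by rw [hpq, one_mul])
    exact Or.inr (Or.inr (by linarith))
  · rw [e] at hpq hq'
    push_cast at hpq hq'
    have : x / 8 * 2 = 1 := mul_right_cancel₀
      (right_ne_zero_of_mul hq') (by linear_combination hpq)
    exact Or.inr (Or.inl (by linarith))

/-- The affine points of `y² = x (x² + 13 x + 128)`, by a `3`-isogeny to the previous curve. -/
theorem points_source {x y : ℚ} (h : y ^ 2 = x * (x ^ 2 + 13 * x + 128)) :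
    x = 0 ∨ x = 4 ∨ x = 32 := by
  have hden : 3 * x + 16 ≠ 0 := fun e => by
    obtain rfl : x = -16 / 3 := by linarith
    nlinarith [sq_nonneg y]
  have hpos : 0 < x ^ 2 + 13 * x + 128 := by nlinarith [sq_nonneg (2 * x + 13)]
  have key : (y * (x + 24) * (x ^ 2 - 8 * x + 128)) ^ 2 =
      x * (x + 24) ^ 2 * ((x * (x + 24) ^ 2) ^ 2 -
        11 * (x * (x + 24) ^ 2) * (3 * x + 16) ^ 2 + 32 * ((3 * x + 16) ^ 2) ^ 2) := by
    linear_combination (x + 24) ^ 2 * (x ^ 2 - 8 * x + 128) ^ 2 * h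
  rcases points_target (x := x * (x + 24) ^ 2 / (3 * x + 16) ^ 2)
    (y := y * (x + 24) * (x ^ 2 - 8 * x + 128) / (3 * x + 16) ^ 3)
    (by rw [div_pow, key]; generalize 3 * x + 16 = d at *; field_simp) with e | e | e
  · rw [div_eq_zero_iff, or_iff_left (pow_ne_zero 2 hden), mul_eq_zero] at e
    rcases e with e | e
    · exact Or.inl e
    · obtain rfl : x = -24 := by linarith [(pow_eq_zero_iff two_ne_zero).mp e]
      nlinarith [sq_nonneg y]
  · rw [div_eq_iff (pow_ne_zero 2 hden)] at e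
    have : (x - 4) * ((x + 8) ^ 2 + 192) = 0 := by linear_combination e
    exact Or.inr (Or.inl (by linarith [(mul_eq_zero.mp this).resolve_right (by positivity)]))
  · rw [div_eq_iff (pow_ne_zero 2 hden)] at e
    have : (x - 32) * ((x + 4) ^ 2 + 48) = 0 := by linear_combination e
    exact Or.inr (Or.inr (by linarith [(mul_eq_zero.mp this).resolve_right (by positivity)]))

/-- `49 z⁴ - 26 z² - 7` is a square for `z = ±1` only. -/
theorem quartic_points {z y : ℚ} (h : y ^ 2 = 49 * z ^ 4 - 26 * z ^ 2 - 7) : z ^ 2 = 1 := by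
  have hz : z ≠ 0 := fun e => by rw [e] at h; nlinarith [sq_nonneg y]
  rcases points_source (x := y ^ 2 / (4 * z ^ 2))
    (y := y * (49 * z ^ 4 + 7) / (8 * z ^ 3)) (by
      field_simp
      rw [h]
      ring) with e | e | e <;> rw [div_eq_iff (by positivity)] at e
  · exfalso
    rw [zero_mul] at e
    refine sq_ne_natCast (n := 512) ?_ (49 * z ^ 2 - 13)
      (by push_cast; linear_combination 49 * e - 49 * h)
    rintro ⟨r, hr⟩
    rcases le_or_gt r 22 with hle | hgt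
    · nlinarith
    · nlinarith
  · have : (z ^ 2 - 1) * (7 * (7 * z ^ 2 + 1)) = 0 := by linear_combination e - h
    linarith [(mul_eq_zero.mp this).resolve_right (by positivity)]
  · exfalso
    refine sq_ne_natCast (n := 128) ?_ (y / z) (by rw [div_pow, e]; push_cast; field_simp; norm_num)
    rintro ⟨r, hr⟩
    rcases le_or_gt r 11 with hle | hgt
    · nlinarith
    · nlinarith

/-- The parameter over a root of the `2`-division polynomial. -/
theorem param_of_cubic {f g h : ℚ} (hh : h ≠ 0)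
    (h2 : 3 * f ^ 2 + h * g ^ 2 = 12 * (h ^ 2 + 13 * h + 49) * (h ^ 2 + 5 * h + 1))
    (h3 : f ^ 3 - h * f * g ^ 2 =
      8 * (h ^ 2 + 13 * h + 49) * (h ^ 4 + 14 * h ^ 3 + 63 * h ^ 2 + 70 * h - 7))
    (h4 : g * (h * g ^ 2 - 9 * f ^ 2) = 1728 * (h ^ 2 + 13 * h + 49)) : h = 7 ∨ h = -7 := by
  set A := h ^ 2 + 13 * h + 49 with hA
  set B := h ^ 2 + 5 * h + 1 with hB
  have hA0 : 0 < A := by rw [hA]; nlinarith [sq_nonneg (2 * h + 13)]
  have hB0 : B ≠ 0 := fun e => sq_ne_natCast (n := 21) (by norm_num) (2 * h + 5) (by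
    rw [hB] at e; push_cast; linear_combination 4 * e)
  set P := h ^ 2 + 3 * h - 7 with hP
  set Q := -2 * h - 10 with hQ
  set M := 6 * A * B with hM
  have hM0 : M ≠ 0 := mul_ne_zero (mul_ne_zero (by norm_num) hA0.ne') hB0
  set a := (3 * f * P + 3 * h * g * Q) / M with ha
  set b := (g * P - 3 * f * Q) / M with hb
  set n := h - 7 with hn
  have hcirc : a ^ 2 + 3 * h * b ^ 2 = 1 := by
    have hPQ : P ^ 2 + 3 * h * Q ^ 2 = A * B := by rw [hP, hQ, hA, hB]; ring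
    rw [ha, hb]
    field_simp
    rw [hM]
    linear_combination 3 * (P ^ 2 + 3 * h * Q ^ 2) * h2 + 36 * A * B * hPQ
  have hre : A * (a ^ 3 - 9 * h * a * b ^ 2) = n ^ 2 - 27 * h := by
    have e : M ^ 3 * (a ^ 3 - 9 * h * a * b ^ 2) =
        27 * (f ^ 3 - h * f * g ^ 2) * (P ^ 3 - 9 * h * P * Q ^ 2) +
        9 * h * (g * (h * g ^ 2 - 9 * f ^ 2)) * (3 * h * Q ^ 3 - 3 * P ^ 2 * Q) := by
      rw [ha, hb]; field_simp; ring
    rw [h3, h4] at e
    refine mul_left_cancel₀ (pow_ne_zero 3 hM0) ?_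
    rw [← mul_assoc, mul_comm (M ^ 3) A, mul_assoc, e, hM, hP, hQ, hn, hA, hB]
    ring
  have him : A * (3 * a ^ 2 * b - 3 * h * b ^ 3) = 6 * n := by
    have e : M ^ 3 * (3 * a ^ 2 * b - 3 * h * b ^ 3) =
        27 * (f ^ 3 - h * f * g ^ 2) * (3 * h * Q ^ 3 - 3 * P ^ 2 * Q) -
        3 * (g * (h * g ^ 2 - 9 * f ^ 2)) * (P ^ 3 - 9 * h * P * Q ^ 2) := by
      rw [ha, hb]; field_simp; ring
    rw [h3, h4] at e
    refine mul_left_cancel₀ (pow_ne_zero 3 hM0) ?_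
    rw [← mul_assoc, mul_comm (M ^ 3) A, mul_assoc, e, hM, hP, hQ, hn, hA, hB]
    ring
  clear_value a b
  clear ha hb h2 h3 h4 hP hQ
  by_cases hu : 1 - a = 0
  · obtain rfl : a = 1 := by linarith
    obtain rfl : b = 0 := by
      have : h * b ^ 2 = 0 := by linarith
      exact pow_eq_zero_iff two_ne_zero |>.mp ((mul_eq_zero.mp this).resolve_left hh)
    left
    linarith [hn]
  set u := 1 - a with hudef
  have hR : 9 * h * b ^ 2 - 3 * u ^ 2 = 6 * u * a := by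
    rw [hudef]; linear_combination 3 * hcirc
  have hN : 9 * h * b ^ 2 + 3 * u ^ 2 = 6 * u := by rw [hudef]; linear_combination 3 * hcirc
  set p := 27 * h * b ^ 3 - 27 * b * u ^ 2 with hp
  set q := 3 * u * (9 * h * b ^ 2 - u ^ 2) with hq
  have f1 : h * p ^ 2 + 3 * q ^ 2 = 216 * u ^ 3 := by
    rw [show h * p ^ 2 + 3 * q ^ 2 = (9 * h * b ^ 2 + 3 * u ^ 2) ^ 3 by rw [hp, hq]; ring, hN]
    ring
  have f2 : A * (h * p ^ 2 - 3 * q ^ 2) = 216 * u ^ 3 * (n ^ 2 - 27 * h) := by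
    rw [show h * p ^ 2 - 3 * q ^ 2 = (9 * h * b ^ 2 - 3 * u ^ 2) ^ 3 -
      9 * h * (9 * h * b ^ 2 - 3 * u ^ 2) * (6 * u * b) ^ 2 by rw [hp, hq]; ring, hR, ← hre]
    ring
  have f3 : A * (p * q) = 108 * u ^ 3 * (6 * n) := by
    rw [show p * q = (3 * (9 * h * b ^ 2 - 3 * u ^ 2) ^ 2 * (6 * u * b) -
      3 * h * (6 * u * b) ^ 3) / 2 by rw [hp, hq]; ring, hR, ← him]
    ring
  have hAn : A = n ^ 2 + 27 * h := by rw [hA, hn]; ring
  have hlin : 3 * h * p - n * q = 0 := by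
    have h0 : A * (3 * h * p - n * q) ^ 2 = 0 := by
      linear_combination (9 * h / 2 + n ^ 2 / 6) * A * f1 + (9 * h / 2 - n ^ 2 / 6) * f2 -
        6 * h * n * f3 + (216 * u ^ 3) * (9 * h / 2 + n ^ 2 / 6) * hAn
    exact pow_eq_zero_iff two_ne_zero |>.mp ((mul_eq_zero.mp h0).resolve_left hA0.ne')
  set v := 3 * b / u with hv
  have hrel : h ^ 2 * (v ^ 3 - v ^ 2) + h * (7 * v ^ 2 - 9 * v + 1) - 7 = 0 := by
    rw [hv]
    field_simp
    rw [hp, hq, hn] at hlin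
    linear_combination hlin / 3
  have hsq : (4 * (2 * (v ^ 3 - v ^ 2) * h + (7 * v ^ 2 - 9 * v + 1))) ^ 2 =
      49 * (2 * v - 1) ^ 4 - 26 * (2 * v - 1) ^ 2 - 7 := by
    linear_combination 64 * (v ^ 3 - v ^ 2) * hrel
  have hv01 : v * (v - 1) = 0 := by linear_combination quartic_points hsq / 4
  rcases mul_eq_zero.mp hv01 with e | e
  · rw [e] at hrel; left; linarith
  · rw [show v = 1 by linarith] at hrel; right; linarith

/-- **The points of `X₀(14)` over `X₀(7)`**: a root of the reduced cubic forces the parameter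
`±7`. -/
theorem param_of_root {x c₄ c₆ Δ h : ℚ} (hx : x ^ 3 - 3 * c₄ / 16 * x - c₆ / 32 = 0)
    (hrel : c₄ ^ 3 - c₆ ^ 2 = 1728 * Δ) (hΔ : Δ ≠ 0) (hh : h ≠ 0)
    (hj : c₄ ^ 3 * h = (h ^ 2 + 13 * h + 49) * (h ^ 2 + 5 * h + 1) ^ 3 * Δ) :
    h = 7 ∨ h = -7 := by
  set A := h ^ 2 + 13 * h + 49 with hA
  set B := h ^ 2 + 5 * h + 1 with hB
  set C := h ^ 4 + 14 * h ^ 3 + 63 * h ^ 2 + 70 * h - 7 with hC
  have hC0 : C ≠ 0 := seven_quartic_ne_zero h
  have hA0 : 0 < A := by rw [hA]; nlinarith [sq_nonneg (2 * h + 13)]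
  have hB0 : B ≠ 0 := fun e => sq_ne_natCast (n := 21) (by norm_num) (2 * h + 5) (by
    rw [hB] at e; push_cast; linear_combination 4 * e)
  have hABC : A * B ^ 3 - C ^ 2 = 1728 * h := by rw [hA, hB, hC]; ring
  have hk : c₆ ^ 2 * h = C ^ 2 * Δ := by linear_combination hj - h * hrel + Δ * hABC
  have hc6 : c₆ ≠ 0 := fun e => mul_ne_zero (pow_ne_zero 2 hC0) hΔ (by rw [← hk, e]; ring)
  have hrat : C ^ 2 * c₄ ^ 3 = A * B ^ 3 * c₆ ^ 2 :=
    mul_left_cancel₀ hh (by linear_combination C ^ 2 * hj - A * B ^ 3 * hk)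
  set μ := 4 * C * c₄ / (B * c₆) with hμ
  have hμ2 : μ ^ 2 * c₄ = 16 * A * B := by
    rw [hμ]; field_simp; linear_combination 16 * hrat
  have hμ3 : μ ^ 3 * c₆ = 64 * A * C := by
    rw [hμ]; field_simp; linear_combination 64 * hrat
  clear_value μ
  set f := μ * x with hf
  have hf3 : f ^ 3 - 3 * A * B * f = 2 * A * C := by
    rw [hf]; linear_combination μ ^ 3 * hx + 3 / 16 * μ * x * hμ2 + 1 / 32 * hμ3
  clear_value f
  have hne : A * B - f ^ 2 ≠ 0 := fun e => by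
    have hBf : B * f = -C := mul_left_cancel₀ hA0.ne'
      (by linear_combination (-1 / 2 : ℚ) * hf3 - f / 2 * e)
    refine hh ?_
    have h0 : 1728 * h = 0 := by
      linear_combination -hABC + B ^ 2 * e + (B * f - C) * hBf
    linarith
  set g := 144 * A / (A * B - f ^ 2) with hg
  have hgm : g * (A * B - f ^ 2) = 144 * A := div_mul_cancel₀ _ hne
  have h2 : 3 * f ^ 2 + h * g ^ 2 = 12 * A * B := by
    refine mul_right_cancel₀ (pow_ne_zero 2 hne) ?_
    linear_combination h * (g * (A * B - f ^ 2) + 144 * A) * hgm - 12 * A ^ 2 * hABC +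
      3 * (f ^ 3 - 3 * A * B * f + 2 * A * C) * hf3
  refine param_of_cubic hh h2 ?_ ?_
  · linear_combination -f * h2 + 4 * hf3
  · linear_combination g * h2 + 12 * hgm

end FA.EC.SevenFibre

end
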