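import Fermat.Agent.EC.IsogenySeven
import Fermat.Agent.EC.SevenFibre
import Fermat.Agent.Frob.Charpoly
import Fermat.Agent.Torsion.X21Fibre

/-!
# The mod `7` representation of a semistable curve with a rational point of order `2` or `3`

It is irreducible: the points of `X₀(14)` and `X₀(21)` away from the cusps have additive
reduction at `7` or at `3`.
-/

set_option autoImplicit false

noncomputable section

open WeierstrassCurve

namespace FA.EC

variable {W : WeierstrassCurve ℤ}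

lemma not_semistable_seven (hW : W.IsSemistableModel) {k : ℤ} (h : W.c₄ ^ 3 = k * W.Δ)
    (h7 : (7 : ℤ) ∣ k - 1728) (h49 : ¬ (49 : ℤ) ∣ k - 1728) : False := by
  have hp : Prime (7 : ℤ) := by norm_num
  have hc6 : W.c₆ ^ 2 = (k - 1728) * W.Δ := by linear_combination h + W.c_relation
  have hΔ7 : ¬ (7 : ℤ) ∣ W.Δ := fun hd =>
    hW 7 (by norm_num) hd (hp.dvd_of_dvd_pow (h ▸ dvd_mul_of_dvd_right hd k))
  apply h49
  refine ((hp.coprime_iff_not_dvd.mpr hΔ7).pow_left (m := 2)).dvd_of_dvd_mul_right ?_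
  rw [← hc6]
  exact pow_dvd_pow_of_dvd (hp.dvd_of_dvd_pow (hc6 ▸ dvd_mul_of_dvd_left h7 _)) 2

lemma not_semistable_three (hW : W.IsSemistableModel) {num den : ℤ}
    (h : den * W.c₄ ^ 3 = num * W.Δ) (h3 : (3 : ℤ) ∣ num) (hden : ¬ (3 : ℤ) ∣ den)
    (h729 : ¬ (729 : ℤ) ∣ num - 1728 * den) : False := by
  have hp : Prime (3 : ℤ) := Int.prime_three
  have hc : (3 : ℤ) ∣ W.c₄ := hp.dvd_of_dvd_pow
    ((hp.dvd_or_dvd (h ▸ dvd_mul_of_dvd_left h3 _ : (3 : ℤ) ∣ den * W.c₄ ^ 3)).resolve_left hden)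
  have hΔ3 : ¬ (3 : ℤ) ∣ W.Δ := fun hd => hW 3 Nat.prime_three hd hc
  have hb : (3 : ℤ) ∣ W.b₂ := hp.dvd_of_dvd_pow (n := 2) (by
    rw [show W.b₂ ^ 2 = W.c₄ + 3 * (8 * W.b₄) by simp only [c₄]; ring]
    exact dvd_add hc (dvd_mul_right _ _))
  obtain ⟨m, hm⟩ := hb
  have h27 : (27 : ℤ) ∣ W.c₆ :=
    ⟨-m ^ 3 + 4 * m * W.b₄ - 8 * W.b₆, by simp only [c₆, hm]; ring⟩
  apply h729
  refine (show (729 : ℤ) = 3 ^ 6 by norm_num) ▸
    ((hp.coprime_iff_not_dvd.mpr hΔ3).pow_left (m := 6)).dvd_of_dvd_mul_right ?_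
  rw [show (num - 1728 * den) * W.Δ = den * W.c₆ ^ 2 by
    linear_combination -h - den * W.c_relation]
  refine dvd_mul_of_dvd_right ?_ den
  exact (show (27 : ℤ) ^ 2 = 3 ^ 6 by norm_num) ▸ pow_dvd_pow_of_dvd h27 2

/-- **Irreducibility mod `7` with a rational point of order `2`.** -/
theorem modRepIsIrreducible_seven_of_root (hΔ : W.Δ ≠ 0) (hW : W.IsSemistableModel) {e : ℚ}
    (he : 4 * e ^ 3 + (W.b₂ : ℚ) * e ^ 2 + 2 * (W.b₄ : ℚ) * e + (W.b₆ : ℚ) = 0) :
    W.ModRepIsIrreducible 7 := by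
  by_contra hcon
  have := FA.Frob.ratCurve_isElliptic_of_Δ hΔ
  obtain ⟨t, ht0, ht⟩ := exists_param_seven (E := W.map (Int.castRingHom ℚ)) hcon
  rw [map_c₄, map_Δ, eq_intCast, eq_intCast] at ht
  have hrel : (W.c₄ : ℚ) ^ 3 - (W.c₆ : ℚ) ^ 2 = 1728 * (W.Δ : ℚ) := by
    exact_mod_cast W.c_relation.symm
  have hx : (3 * e + (W.b₂ : ℚ) / 4) ^ 3 -
      3 * (W.c₄ : ℚ) / 16 * (3 * e + (W.b₂ : ℚ) / 4) - (W.c₆ : ℚ) / 32 = 0 := by
    simp only [c₄, c₆]; push_cast; linear_combination 27 / 4 * he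
  rcases SevenFibre.param_of_root hx hrel (Int.cast_ne_zero.mpr hΔ) ht0 ht with rfl | rfl
  · refine not_semistable_seven hW (k := 27 * 85 ^ 3) ?_ (by norm_num) (by norm_num)
    refine Int.cast_injective (α := ℚ) ?_
    push_cast
    linear_combination (1 / 7 : ℚ) * ht
  · refine not_semistable_seven hW (k := -15 ^ 3) ?_ (by norm_num) (by norm_num)
    refine Int.cast_injective (α := ℚ) ?_
    push_cast
    linear_combination (-1 / 7 : ℚ) * ht

/-- **Irreducibility mod `7` with a rational kernel of a `3`-isogeny.** -/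
theorem modRepIsIrreducible_seven_of_root_three (hΔ : W.Δ ≠ 0) (hW : W.IsSemistableModel) {e : ℚ}
    (he : (W.map (Int.castRingHom ℚ)).Ψ₃.eval e = 0) : W.ModRepIsIrreducible 7 := by
  by_contra hcon
  have := FA.Frob.ratCurve_isElliptic_of_Δ hΔ
  obtain ⟨t, ht0, ht⟩ := exists_param_seven (E := W.map (Int.castRingHom ℚ)) hcon
  obtain ⟨s, hs, hsj⟩ := exists_param_three _ _ he
  rw [map_c₄, map_Δ, eq_intCast, eq_intCast] at ht hsj
  have hF : (s + 27) * (s + 3) ^ 3 * t = (t ^ 2 + 13 * t + 49) * (t ^ 2 + 5 * t + 1) ^ 3 * s :=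
    mul_right_cancel₀ (Int.cast_ne_zero.mpr hΔ : (W.Δ : ℚ) ≠ 0)
      (by linear_combination s * ht - t * hsj)
  rcases FA.Torsion.X21.fibre_points ht0 hF with rfl | rfl | rfl | rfl
  · refine not_semistable_three hW (num := -27 * 1915 ^ 3) (den := 128) ?_
      (by norm_num) (by norm_num) (by norm_num)
    refine Int.cast_injective (α := ℚ) ?_
    push_cast
    linear_combination (-256 / 49 : ℚ) * ht
  · refine not_semistable_three hW (num := -140625) (den := 8) ?_
      (by norm_num) (by norm_num) (by norm_num)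
    refine Int.cast_injective (α := ℚ) ?_
    push_cast
    linear_combination (-1 : ℚ) * ht
  · refine not_semistable_three hW (num := -9 * 505 ^ 3) (den := 2097152) ?_
      (by norm_num) (by norm_num) (by norm_num)
    refine Int.cast_injective (α := ℚ) ?_
    push_cast
    linear_combination (-16777216 / 49 : ℚ) * ht
  · refine not_semistable_three hW (num := 3375) (den := 2) ?_
      (by norm_num) (by norm_num) (by norm_num)
    refine Int.cast_injective (α := ℚ) ?_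
    push_cast
    linear_combination (-1 : ℚ) * ht

end FA.EC

end
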